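import Fermat.Agent.S24.FF.Basic

/-! # S24 / FF / package FF-T : transcendental elements of a function field of one variable -/

set_option autoImplicit false

namespace Fermat.Agent.S24.FF

open AlgebraicCurve IntermediateField

variable {K F : Type*} [Field K] [Field F] [Algebra K F]

/-- auxiliary: if `F` is algebraic over `K(t)` and `s` is transcendental over `K`, then `F` is
algebraic over `K(s)`. -/
theorem isAlgebraic_adjoin_of_transcendental {t s : F} (ht : Algebra.IsAlgebraic K⟮t⟯ F)
    (hs : Transcendental K s) : Algebra.IsAlgebraic K⟮s⟯ F := by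
  -- `F` is algebraic over `K[t]`
  have halg : Algebra.IsAlgebraic (Algebra.adjoin K ({t} : Set F)) F :=
    IntermediateField.isAlgebraic_adjoin_iff_top.mp ht
  have hle : Algebra.trdeg K F ≤ 1 := by
    have := Algebra.IsAlgebraic.trdeg_le_cardinalMk K ({t} : Set F)
    simpa using this
  have hind : AlgebraicIndependent K ![s] := algebraicIndependent_iff_transcendental.mpr hs
  have hbasis : IsTranscendenceBasis K ![s] := by
    refine hind.isTranscendenceBasis_of_lift_trdeg_le
      (lt_of_le_of_lt hle Cardinal.one_lt_aleph0) ?_
    simpa using hle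
  have h2 := hbasis.isAlgebraic
  have hrange : Set.range ![s] = {s} := by simp
  rw [hrange] at h2
  exact IntermediateField.isAlgebraic_adjoin_iff_top.mpr h2

/-- (P0) `F` is finite over `K(s)` for ANY transcendental `s`. -/
theorem finiteDimensional_adjoin_of_transcendental [IsFF1 K F] {s : F} (hs : Transcendental K s) :
    FiniteDimensional K⟮s⟯ F := by
  obtain ⟨t, -, hfin⟩ := IsFF1.exists_transcendental (K := K) (F := F)
  have halg : Algebra.IsAlgebraic K⟮s⟯ F :=
    isAlgebraic_adjoin_of_transcendental (t := t) (Algebra.IsAlgebraic.of_finite _ _) hs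
  -- a finite generating set of `F` over `K(t)`
  obtain ⟨S, hS⟩ := (Module.finite_def.mp hfin)
  -- the intermediate field of `F / K(s)` generated by `t` and `S`
  set L : IntermediateField K⟮s⟯ F := IntermediateField.adjoin K⟮s⟯ (insert t (S : Set F)) with hL
  have hLfin : FiniteDimensional K⟮s⟯ L := by
    have : Finite ↑(insert t (S : Set F)) := (Set.Finite.insert t S.finite_toSet).to_subtype
    exact IntermediateField.finiteDimensional_adjoin
      (fun x _ => (halg.isAlgebraic x).isIntegral)
  have htL : t ∈ L := IntermediateField.subset_adjoin _ _ (Set.mem_insert _ _)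
  have hKt : ∀ x : K⟮t⟯, (x : F) ∈ L := by
    intro x
    have hle : K⟮t⟯ ≤ L.restrictScalars K := by
      rw [IntermediateField.adjoin_simple_le_iff]
      exact htL
    exact hle x.2
  have htop : L = ⊤ := by
    rw [eq_top_iff]
    intro x _
    have hx : x ∈ Submodule.span K⟮t⟯ (S : Set F) := by rw [hS]; trivial
    induction hx using Submodule.span_induction with
    | mem y hy => exact IntermediateField.subset_adjoin _ _ (Set.mem_insert_of_mem _ hy)
    | zero => exact zero_mem _
    | add y z _ _ hy hz => exact add_mem (hy trivial) (hz trivial)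
    | smul a y _ hy =>
      rw [Algebra.smul_def]
      exact mul_mem (hKt a) (hy trivial)
  rw [htop] at hLfin
  exact (IntermediateField.topEquiv (F := K⟮s⟯) (E := F)).toLinearEquiv.finiteDimensional

/-- (P0') over an algebraically closed field, non-constants are transcendental. -/
theorem transcendental_of_not_mem_range [IsAlgClosed K] {s : F}
    (hs : s ∉ Set.range (algebraMap K F)) : Transcendental K s := by
  intro halg
  apply hs
  have h1 : Algebra.IsAlgebraic K K⟮s⟯ :=
    IntermediateField.isAlgebraic_adjoin_simple halg.isIntegral
  have h2 : K⟮s⟯ = ⊥ := IntermediateField.eq_bot_of_isAlgClosed_of_isAlgebraic _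
  have h3 : s ∈ (⊥ : IntermediateField K F) := h2 ▸ IntermediateField.mem_adjoin_simple_self K s
  exact IntermediateField.mem_bot.mp h3

/-- (P0'') an element with nonzero order at some place is transcendental. -/
theorem transcendental_of_ord_ne_zero (v : Place K F) {s : F} (hs : v.ord s ≠ 0) :
    Transcendental K s := by
  intro halg
  apply hs
  have hs0 : s ≠ 0 := ne_zero_of_ord_ne_zero v hs
  -- any nonzero algebraic element has nonnegative order
  have key : ∀ x : F, x ≠ 0 → IsAlgebraic K x → 0 ≤ v.ord x := by
    intro x hx0 hx
    by_contra hneg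
    push Not at hneg
    -- `x⁻¹` lies in the maximal ideal; `x` is integral over `K ⊆ O_v`, so `x ∈ O_v`.
    have hint : IsIntegral K x := hx.isIntegral
    have hint' : IsIntegral v.toValuationSubring x := hint.tower_top
    have hmem : x ∈ v.toValuationSubring := by
      have := IsIntegrallyClosed.isIntegral_iff (R := v.toValuationSubring) (K := F) |>.mp hint'
      obtain ⟨y, hy⟩ := this
      rw [← hy]
      exact y.2
    have := ord_nonneg_of_mem v hmem
    omega
  have h1 := key s hs0 halg
  have h2 := key s⁻¹ (inv_ne_zero hs0) halg.inv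
  rw [v.ord_inv] at h2
  omega

theorem transcendental_sub_algebraMap {x : F} (hx : Transcendental K x) (c : K) :
    Transcendental K (x - algebraMap K F c) := by
  intro h
  apply hx
  have := h.add (isAlgebraic_algebraMap (R := K) (A := F) c)
  simpa using this

theorem transcendental_inv {x : F} (hx : Transcendental K x) : Transcendental K x⁻¹ := by
  intro h
  exact hx (IsAlgebraic.inv_iff.mp h)

/-- (R0) -/
theorem adjoin_sub_algebraMap (x : F) (c : K) : K⟮x - algebraMap K F c⟯ = K⟮x⟯ := by
  apply le_antisymm
  · rw [IntermediateField.adjoin_simple_le_iff]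
    exact sub_mem (IntermediateField.mem_adjoin_simple_self K x) (IntermediateField.algebraMap_mem _ c)
  · rw [IntermediateField.adjoin_simple_le_iff]
    have h := add_mem (IntermediateField.mem_adjoin_simple_self K (x - algebraMap K F c))
      (IntermediateField.algebraMap_mem K⟮x - algebraMap K F c⟯ c)
    simpa using h

theorem adjoin_inv (x : F) : K⟮x⁻¹⟯ = K⟮x⟯ := by
  apply le_antisymm
  · rw [IntermediateField.adjoin_simple_le_iff]
    exact inv_mem (IntermediateField.mem_adjoin_simple_self K x)
  · rw [IntermediateField.adjoin_simple_le_iff]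
    have h := inv_mem (IntermediateField.mem_adjoin_simple_self K x⁻¹)
    simpa using h

theorem finrank_adjoin_sub_algebraMap (x : F) (c : K) :
    Module.finrank K⟮x - algebraMap K F c⟯ F = Module.finrank K⟮x⟯ F := by
  rw [adjoin_sub_algebraMap]

theorem finrank_adjoin_inv (x : F) :
    Module.finrank K⟮x⁻¹⟯ F = Module.finrank K⟮x⟯ F := by
  rw [adjoin_inv]

end Fermat.Agent.S24.FF
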