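import Fermat.Agent.S24.FF.Residue

/-!
# S24 / FF / package FF-Ded : places over `t = 0` <-> primes of the integral closure of `K[t]`
over `(t)`; fundamental identity.
-/

set_option autoImplicit false
set_option linter.deprecated false
open AlgebraicCurve IntermediateField IsDedekindDomain
open scoped IntermediateField.algebraAdjoinAdjoin
namespace Fermat.Agent.S24.FF
variable {K F : Type*} [Field K] [Field F] [Algebra K F]

section general
variable {R : Type*} [CommRing R] [IsDedekindDomain R] [Algebra R F] [IsFractionRing R F]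
  [Algebra K R] [IsScalarTower K R F]

/-- `ord` of the place attached to a height one prime. -/
theorem ord_ofHeightOneSpectrum (P : HeightOneSpectrum R) (f : F) :
    (Place.ofHeightOneSpectrum (K := K) P).ord f = - WithZero.log (P.valuation F f) := by
  rcases eq_or_ne f 0 with rfl | hf
  · simp
  obtain ⟨m, hm, h⟩ := exists_mul_ord_of_valuationSubring_eq (Place.ofHeightOneSpectrum (K := K) P)
    (P.valuation F) rfl
  obtain ⟨ϖ, hϖ⟩ := P.valuation_exists_uniformizer F
  have hϖ0 : ϖ ≠ 0 := by
    rintro rfl
    rw [map_zero] at hϖ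
    exact WithZero.exp_ne_zero hϖ.symm
  have h1 := h ϖ hϖ0
  rw [hϖ] at h1
  simp only [WithZero.log_exp, neg_neg] at h1
  have hm1 : m = 1 := by
    have : m ∣ 1 := ⟨_, h1⟩
    exact Int.eq_one_of_dvd_one hm.le this
  rw [h f hf, hm1, one_mul]

theorem ofHeightOneSpectrum_injective :
    Function.Injective (Place.ofHeightOneSpectrum (K := K) (F := F) (R := R)) := by
  intro P Q h
  apply HeightOneSpectrum.eq_of_valuation_isEquiv_valuation (K := F)
  rw [Valuation.isEquiv_iff_valuationSubring]
  exact congrArg Place.toValuationSubring h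

omit [Algebra K F] in
/-- A valuation ring of `F` containing `R` and not equal to `F` comes from a height one prime. -/
theorem exists_heightOneSpectrum_of_le (O : ValuationSubring F)
    (hR : ∀ r : R, algebraMap R F r ∈ O) (hO : O ≠ ⊤) :
    ∃ P : HeightOneSpectrum R, (P.valuation F).valuationSubring = O := by
  let i : R →+* O := (algebraMap R F).codRestrict O.toSubring hR
  let P : Ideal R := (IsLocalRing.maximalIdeal O).comap i
  have hPprime : P.IsPrime := Ideal.comap_isPrime _ _
  -- elements outside `P` are units of `O`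
  have hinv : ∀ b : R, b ∉ P → (algebraMap R F b)⁻¹ ∈ O := by
    intro b hbP
    have hunit : IsUnit (i b) := by
      by_contra hnu
      exact hbP ((IsLocalRing.mem_maximalIdeal _).mpr hnu)
    obtain ⟨u, hu⟩ := hunit
    have h1 : ((u : O) : F) = algebraMap R F b := by rw [hu]; rfl
    have h2 : ((u : O) : F) * (((u⁻¹ : Oˣ) : O) : F) = 1 := by
      rw [← MulMemClass.coe_mul, Units.mul_inv]; rfl
    have : (algebraMap R F b)⁻¹ = (((u⁻¹ : Oˣ) : O) : F) := by
      rw [← h1]
      exact inv_eq_of_mul_eq_one_right h2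
    rw [this]
    exact SetLike.coe_mem _
  have hPne : P ≠ ⊥ := by
    intro hbot
    apply hO
    rw [eq_top_iff]
    intro x _
    obtain ⟨a, b, hb, rfl⟩ := IsFractionRing.div_surjective (A := R) x
    have hb0 : b ≠ 0 := nonZeroDivisors.ne_zero hb
    have hbP : b ∉ P := by
      rw [hbot]; simpa using hb0
    rw [div_eq_mul_inv]
    exact mul_mem (hR a) (hinv b hbP)
  refine ⟨⟨P, hPprime, hPne⟩, ?_⟩
  set Q : HeightOneSpectrum R := ⟨P, hPprime, hPne⟩
  rw [← HeightOneSpectrum.valuationSubringAtPrime_eq_valuationSubring]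
  refine ValuationSubring.eq_of_le_of_ne_top _ ?_ hO
  rw [HeightOneSpectrum.valuationSubringAtPrime_eq_valuationSubring]
  intro x hx
  obtain ⟨n, d, hnd⟩ := Q.exists_primeCompl_mul_eq_of_integer x hx
  have hd0 : algebraMap R F d ≠ 0 := by
    intro h0
    have : (d : R) = 0 := (IsFractionRing.injective R F) (by rw [h0, map_zero])
    exact d.2 (this ▸ P.zero_mem)
  have : x = algebraMap R F n * (algebraMap R F d)⁻¹ := by
    rw [← hnd]; field_simp
  rw [this]
  exact mul_mem (hR n) (hinv d d.2)

end general

abbrev Apoly (K : Type*) {F : Type*} [Field K] [Field F] [Algebra K F] (t : F) : Subalgebra K F := Algebra.adjoin K {t}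
abbrev Bint (K : Type*) {F : Type*} [Field K] [Field F] [Algebra K F] (t : F) : Subalgebra (Apoly K t) F := integralClosure (Apoly K t) F

theorem isPID_Apoly {t : F} (ht : Transcendental K t) : IsPrincipalIdealRing (Apoly K t) :=
  IsPrincipalIdealRing.of_surjective (Polynomial.algEquivOfTranscendental K t ht).toRingEquiv.toRingHom
    (Polynomial.algEquivOfTranscendental K t ht).surjective

theorem isDedekind_Bint [CharZero K] {t : F} (ht : Transcendental K t) [FiniteDimensional K⟮t⟯ F] : IsDedekindDomain (Bint K t) := by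
  have := isPID_Apoly ht
  exact integralClosure.isDedekindDomain (Apoly K t) K⟮t⟯ F

theorem isFractionRing_Bint (t : F) [FiniteDimensional K⟮t⟯ F] : IsFractionRing (Bint K t) F :=
  integralClosure.isFractionRing_of_finite_extension K⟮t⟯ F

theorem finite_Bint [CharZero K] {t : F} (ht : Transcendental K t) [FiniteDimensional K⟮t⟯ F] : Module.Finite (Apoly K t) (Bint K t) := by
  have := isPID_Apoly ht
  exact IsIntegralClosure.finite (Apoly K t) K⟮t⟯ F (Bint K t)

theorem Apoly_le (O : ValuationSubring F) (hK : ∀ a : K, algebraMap K F a ∈ O) {t : F} (ht : t ∈ O) :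
    ∀ a : Apoly K t, (a : F) ∈ O := by
  let O' : Subalgebra K F := { O.toSubring with algebraMap_mem' := hK }
  have : Apoly K t ≤ O' := Algebra.adjoin_le (by rintro x (rfl : x = t); exact ht)
  intro a
  exact this a.2

theorem Bint_le (O : ValuationSubring F) (hK : ∀ a : K, algebraMap K F a ∈ O) {t : F} (ht : t ∈ O) :
    ∀ b : Bint K t, algebraMap (Bint K t) F b ∈ O := by
  intro b
  have hb : IsIntegral (Apoly K t) (b : F) := b.2
  obtain ⟨p, hp, hp0⟩ := hb
  let i : Apoly K t →+* O := (algebraMap (Apoly K t) F).codRestrict O.toSubring (Apoly_le O hK ht)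
  have hint : IsIntegral O (b : F) := by
    refine ⟨p.map i, hp.map i, ?_⟩
    rw [Polynomial.eval₂_map]
    exact hp0
  obtain ⟨y, hy⟩ := IsIntegrallyClosed.isIntegral_iff.mp hint
  show (b : F) ∈ O
  rw [← hy]
  exact y.2

theorem finiteType_Bint [CharZero K] {t : F} (ht : Transcendental K t) [FiniteDimensional K⟮t⟯ F] :
    Algebra.FiniteType K (Bint K t) := by
  have := finite_Bint ht
  have h1 : Algebra.FiniteType K (Apoly K t) := by
    exact (Subalgebra.fg_iff_finiteType _).mp ⟨{t}, by simp⟩
  have h2 : Algebra.FiniteType (Apoly K t) (Bint K t) := inferInstance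
  exact Algebra.FiniteType.trans h1 h2


theorem transcendental_of_mem_of_inv_not_mem (O : ValuationSubring F)
    (hK : ∀ a : K, algebraMap K F a ∈ O) {s : F} (hs : s ∈ O) (hs' : s⁻¹ ∉ O) :
    Transcendental K s := by
  intro halg
  apply hs'
  have h1 : K⟮s⟯.toSubalgebra = Algebra.adjoin K {s} :=
    IntermediateField.adjoin_simple_toSubalgebra_of_isAlgebraic halg
  have h2 : s⁻¹ ∈ K⟮s⟯.toSubalgebra :=
    (IntermediateField.mem_toSubalgebra _ _).mpr (inv_mem (IntermediateField.mem_adjoin_simple_self K s))
  rw [h1] at h2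
  exact Apoly_le O hK hs ⟨_, h2⟩

/-- (P1) every nontrivial valuation ring of `F/K` is (the valuation ring of) a place. -/
theorem exists_place_of_valuationSubring [CharZero K] [IsFF1 K F] (O : ValuationSubring F)
    (hK : ∀ a : K, algebraMap K F a ∈ O) (hO : O ≠ ⊤) :
    ∃ v : Place K F, v.toValuationSubring = O := by
  obtain ⟨x, hx⟩ : ∃ x, x ∉ O := by
    by_contra h
    push Not at h
    exact hO (eq_top_iff.mpr fun x _ => h x)
  have hs : x⁻¹ ∈ O := (O.mem_or_inv_mem x).resolve_left hx
  have htr : Transcendental K x⁻¹ :=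
    transcendental_of_mem_of_inv_not_mem O hK hs (by rwa [inv_inv])
  have := finiteDimensional_adjoin_of_transcendental htr
  have := isDedekind_Bint htr
  have := isFractionRing_Bint (K := K) x⁻¹
  obtain ⟨P, hP⟩ := exists_heightOneSpectrum_of_le (R := Bint K x⁻¹) O (Bint_le O hK hs) hO
  exact ⟨Place.ofHeightOneSpectrum P, hP⟩

theorem essFiniteType_aux [CharZero K] [IsFF1 K F] (O : ValuationSubring F)
    (hK : ∀ a : K, algebraMap K F a ∈ O) (hO : O ≠ ⊤) :
    @Algebra.EssFiniteType K O _ _ (((algebraMap K F).codRestrict O.toSubring hK).toAlgebra) := by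
  obtain ⟨x, hx⟩ : ∃ x, x ∉ O := by
    by_contra h
    push Not at h
    exact hO (eq_top_iff.mpr fun x _ => h x)
  have hs : x⁻¹ ∈ O := (O.mem_or_inv_mem x).resolve_left hx
  have htr : Transcendental K x⁻¹ :=
    transcendental_of_mem_of_inv_not_mem O hK hs (by rwa [inv_inv])
  have := finiteDimensional_adjoin_of_transcendental htr
  have := isDedekind_Bint htr
  have := isFractionRing_Bint (K := K) x⁻¹
  have := finiteType_Bint htr
  obtain ⟨P, hP⟩ := exists_heightOneSpectrum_of_le (R := Bint K x⁻¹) O (Bint_le O hK hs) hO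
  rw [← HeightOneSpectrum.valuationSubringAtPrime_eq_valuationSubring] at hP
  subst hP
  let _ : Algebra K (HeightOneSpectrum.valuationSubringAtPrime F P) :=
    ((algebraMap K F).codRestrict (HeightOneSpectrum.valuationSubringAtPrime F P).toSubring hK).toAlgebra
  have : IsScalarTower K (Bint K x⁻¹) (HeightOneSpectrum.valuationSubringAtPrime F P) :=
    IsScalarTower.of_algebraMap_eq fun a => Subtype.ext rfl
  have : Algebra.EssFiniteType (Bint K x⁻¹) (HeightOneSpectrum.valuationSubringAtPrime F P) :=
    Algebra.EssFiniteType.of_isLocalization _ P.asIdeal.primeCompl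
  exact Algebra.EssFiniteType.comp K (Bint K x⁻¹) _

/-- (P3) the local rings are essentially of finite type over `K`. -/
theorem essFiniteType_toValuationSubring [CharZero K] [IsFF1 K F] (v : Place K F) :
    Algebra.EssFiniteType K v.toValuationSubring :=
  essFiniteType_aux v.toValuationSubring v.algebraMap_mem' v.ne_top'


section fund

variable {t : F}

/-- `t` as an element of `K[t]`. -/
abbrev tA (K : Type*) {F : Type*} [Field K] [Field F] [Algebra K F] (t : F) : Apoly K t :=
  ⟨t, Algebra.subset_adjoin rfl⟩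

theorem tA_ne_zero (ht : Transcendental K t) : tA K t ≠ 0 := by
  intro h
  have : t = 0 := congrArg Subtype.val h
  exact ht (this ▸ isAlgebraic_zero)

theorem irreducible_tA (ht : Transcendental K t) : Irreducible (tA K t) := by
  have h : (Polynomial.algEquivOfTranscendental K t ht) Polynomial.X = tA K t := by
    apply Subtype.ext
    simp
  rw [← h]
  exact (MulEquiv.irreducible_iff (Polynomial.algEquivOfTranscendental K t ht).toMulEquiv).mpr
    Polynomial.irreducible_X

theorem isMaximal_span_tA (ht : Transcendental K t) : (Ideal.span {tA K t}).IsMaximal := by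
  have := isPID_Apoly ht
  exact PrincipalIdealRing.isMaximal_of_irreducible (irreducible_tA ht)

theorem span_tA_ne_bot (ht : Transcendental K t) : Ideal.span {tA K t} ≠ ⊥ := by
  simpa [Ideal.span_singleton_eq_bot] using tA_ne_zero ht


/-- the valuation of `t` at a prime over `(t)` is `exp (-e)`. -/
theorem valuation_t_eq [CharZero K] (ht : Transcendental K t) [FiniteDimensional K⟮t⟯ F]
    [IsDedekindDomain (Apoly K t)] [IsDedekindDomain (Bint K t)] [IsFractionRing (Bint K t) F]
    (P : HeightOneSpectrum (Bint K t)) [hP : P.asIdeal.LiesOver (Ideal.span {tA K t})] :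
    P.valuation F t = WithZero.exp (-((Ideal.span {tA K t}).ramificationIdx' P.asIdeal : ℤ)) := by
  have hmax := isMaximal_span_tA ht
  let v0 : HeightOneSpectrum (Apoly K t) := ⟨Ideal.span {tA K t}, hmax.isPrime, span_tA_ne_bot ht⟩
  have hP' : P.asIdeal.LiesOver v0.asIdeal := hP
  have h := HeightOneSpectrum.valuation_liesOver (K := K⟮t⟯) F v0 P
    (algebraMap (Apoly K t) K⟮t⟯ (tA K t))
  rw [HeightOneSpectrum.valuation_of_algebraMap,
    HeightOneSpectrum.intValuation_singleton v0 (tA_ne_zero ht) rfl] at h
  have h2 : algebraMap K⟮t⟯ F (algebraMap (Apoly K t) K⟮t⟯ (tA K t)) = t := rfl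
  rw [h2] at h
  rw [← h, ← WithZero.exp_nsmul]
  simp
  rfl

omit [Field K] [Field F] [Algebra K F] in
theorem finrank_eq_one_of_bijective {k L : Type*} [CommRing k] [Nontrivial k] [CommRing L]
    [Algebra k L] (h : Function.Bijective (algebraMap k L)) : Module.finrank k L = 1 := by
  rw [← (LinearEquiv.ofBijective (Algebra.linearMap k L) h).finrank_eq]
  exact Module.finrank_self k

/-- residue degree one. -/
theorem inertiaDeg_eq_one [IsAlgClosed K] [CharZero K] [IsFF1 K F] (ht : Transcendental K t)
    [IsDedekindDomain (Bint K t)] [IsFractionRing (Bint K t) F]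
    (P : HeightOneSpectrum (Bint K t)) [hP : P.asIdeal.LiesOver (Ideal.span {tA K t})] :
    (Ideal.span {tA K t}).inertiaDeg' P.asIdeal = 1 := by
  have hmax := isMaximal_span_tA ht
  rw [Ideal.inertiaDeg'_algebraMap]
  have hsurj : Function.Surjective (algebraMap (Apoly K t ⧸ Ideal.span {tA K t})
      (Bint K t ⧸ P.asIdeal)) := by
    intro y
    obtain ⟨b, rfl⟩ := Ideal.Quotient.mk_surjective y
    have hb : 0 ≤ (Place.ofHeightOneSpectrum (K := K) P).ord (b : F) :=
      ord_nonneg_of_mem _ (by
        show (b : F) ∈ (P.valuation F).valuationSubring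
        exact P.valuation_le_one b)
    obtain ⟨c, hc⟩ := exists_ord_sub_pos (Place.ofHeightOneSpectrum (K := K) P) hb
    refine ⟨Ideal.Quotient.mk _ (algebraMap K (Apoly K t) c), ?_⟩
    rw [Ideal.Quotient.algebraMap_mk_of_liesOver, eq_comm, Ideal.Quotient.mk_eq_mk_iff_sub_mem]
    rcases hc with hc | hc
    · have : b = algebraMap (Apoly K t) (Bint K t) (algebraMap K (Apoly K t) c) :=
        Subtype.ext hc
      rw [this, sub_self]
      exact zero_mem _
    · rw [ord_ofHeightOneSpectrum] at hc
      rw [← P.valuation_lt_one_iff_mem (K := F)]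
      have h0 : P.valuation F ((b : F) - algebraMap K F c) ≠ 0 := by
        intro h0
        rw [h0] at hc
        simp at hc
      have : P.valuation F ((b : F) - algebraMap K F c) < 1 := by
        rw [← WithZero.log_lt_log h0 one_ne_zero]
        simp
        omega
      exact this
  have hinj : Function.Injective (algebraMap (Apoly K t ⧸ Ideal.span {tA K t})
      (Bint K t ⧸ P.asIdeal)) := FaithfulSMul.algebraMap_injective _ _
  have hnt : Nontrivial (Apoly K t ⧸ Ideal.span {tA K t}) :=
    Ideal.Quotient.nontrivial_iff.mpr hmax.ne_top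
  exact finrank_eq_one_of_bijective ⟨hinj, hsurj⟩

theorem exists_prime_of_zero
    [IsDedekindDomain (Bint K t)] [IsFractionRing (Bint K t) F]
    (v : Place K F) (hv : 0 < v.ord t) :
    ∃ P : HeightOneSpectrum (Bint K t), Place.ofHeightOneSpectrum P = v := by
  obtain ⟨P, hP⟩ := exists_heightOneSpectrum_of_le (R := Bint K t) v.toValuationSubring
    (Bint_le _ v.algebraMap_mem' (mem_toValuationSubring_of_ord_nonneg v hv.le)) v.ne_top'
  exact ⟨P, Place.ext hP⟩

theorem liesOver_of_ord_pos (ht : Transcendental K t)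
    [IsDedekindDomain (Bint K t)] [IsFractionRing (Bint K t) F]
    (P : HeightOneSpectrum (Bint K t)) (h : 0 < (Place.ofHeightOneSpectrum (K := K) P).ord t) :
    P.asIdeal.LiesOver (Ideal.span {tA K t}) := by
  have hmax := isMaximal_span_tA ht
  constructor
  refine hmax.eq_of_le (Ideal.comap_ne_top _ P.isPrime.ne_top) ?_
  rw [Ideal.span_singleton_le_iff_mem, Ideal.mem_comap, ← P.valuation_lt_one_iff_mem (K := F)]
  rw [ord_ofHeightOneSpectrum] at h
  have h0 : P.valuation F t ≠ 0 := by
    intro h0
    rw [h0] at h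
    simp at h
  have : P.valuation F t < 1 := by
    rw [← WithZero.log_lt_log h0 one_ne_zero]
    simp
    omega
  exact this

theorem ord_t_eq [CharZero K] (ht : Transcendental K t) [FiniteDimensional K⟮t⟯ F]
    [IsDedekindDomain (Apoly K t)] [IsDedekindDomain (Bint K t)] [IsFractionRing (Bint K t) F]
    (P : HeightOneSpectrum (Bint K t)) [hP : P.asIdeal.LiesOver (Ideal.span {tA K t})] :
    (Place.ofHeightOneSpectrum (K := K) P).ord t
      = ((Ideal.span {tA K t}).ramificationIdx' P.asIdeal : ℤ) := by
  rw [ord_ofHeightOneSpectrum, valuation_t_eq ht P]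
  simp

end fund

/-- (P4) finitely many zeros. -/
theorem finite_zeros [CharZero K] [IsFF1 K F] {t : F} (ht : Transcendental K t) :
    {v : Place K F | 0 < v.ord t}.Finite := by
  have hfd := finiteDimensional_adjoin_of_transcendental ht
  have hB := isDedekind_Bint ht
  have hBF := isFractionRing_Bint (K := K) t
  let tB : Bint K t := algebraMap (Apoly K t) (Bint K t) (tA K t)
  have htB : Ideal.span {tB} ≠ 0 := by
    intro h
    rw [Ideal.zero_eq_bot, Ideal.span_singleton_eq_bot] at h
    have : t = 0 := congrArg Subtype.val h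
    exact ht (this ▸ isAlgebraic_zero)
  refine ((Ideal.finite_factors htB).image (Place.ofHeightOneSpectrum (K := K) (F := F))).subset ?_
  intro v hv
  obtain ⟨P, rfl⟩ := exists_prime_of_zero v hv
  refine ⟨P, ?_, rfl⟩
  have := liesOver_of_ord_pos ht P hv
  show P.asIdeal ∣ Ideal.span {tB}
  rw [Ideal.dvd_iff_le, Ideal.span_singleton_le_iff_mem]
  have h1 : tA K t ∈ P.asIdeal.under (Apoly K t) := by
    rw [← this.over]
    exact Ideal.mem_span_singleton_self _
  exact h1

/-- (P5) the fundamental identity `∑ e_v = n` (all `f_v = 1`). -/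
theorem sum_ord_zeros [IsAlgClosed K] [CharZero K] [IsFF1 K F] {t : F} (ht : Transcendental K t) :
    ∑ v ∈ (finite_zeros ht).toFinset, v.ord t = (Module.finrank K⟮t⟯ F : ℤ) := by
  have hfd := finiteDimensional_adjoin_of_transcendental ht
  have hA := isPID_Apoly ht
  have hB := isDedekind_Bint ht
  have hBF := isFractionRing_Bint (K := K) t
  have hfin := finite_Bint ht
  have hmax := isMaximal_span_tA ht
  have hne := span_tA_ne_bot ht
  have key := Ideal.sum_ramification_inertia (R := Apoly K t) (S := Bint K t) K⟮t⟯ F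
    (p := Ideal.span {tA K t}) hne
  rw [← key, Nat.cast_sum]
  symm
  have hmem : ∀ P ∈ IsDedekindDomain.primesOverFinset (Ideal.span {tA K t}) (Bint K t),
      P.IsPrime ∧ P.LiesOver (Ideal.span {tA K t}) := fun P hP =>
    (IsDedekindDomain.mem_primesOverFinset_iff hne _).mp hP
  have hfaith : FaithfulSMul (Apoly K t) (Bint K t) :=
    (faithfulSMul_iff_algebraMap_injective _ _).mpr fun a b h =>
      Subtype.ext (congrArg (fun x : Bint K t => (x : F)) h)
  have hbot : ∀ P ∈ IsDedekindDomain.primesOverFinset (Ideal.span {tA K t}) (Bint K t),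
      P ≠ ⊥ := fun P hP =>
    Ideal.ne_bot_of_mem_primesOver hne ((IsDedekindDomain.mem_primesOverFinset_iff hne _).mp hP)
  refine Finset.sum_bij
    (fun P hP => Place.ofHeightOneSpectrum (K := K) (F := F) ⟨P, (hmem P hP).1, hbot P hP⟩)
    ?_ ?_ ?_ ?_
  · intro P hP
    have := (hmem P hP).2
    let Q : HeightOneSpectrum (Bint K t) := ⟨P, (hmem P hP).1, hbot P hP⟩
    have hQ : Q.asIdeal.LiesOver (Ideal.span {tA K t}) := this
    simp only [Set.Finite.mem_toFinset, Set.mem_ofPred_eq]
    rw [ord_t_eq ht Q]
    have hQp : Q.asIdeal.IsPrime := Q.isPrime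
    have := Ideal.IsDedekindDomain.ramificationIdx'_ne_zero_of_liesOver Q.asIdeal hne
    positivity
  · intro P hP P' hP' h
    have := ofHeightOneSpectrum_injective h
    exact congrArg HeightOneSpectrum.asIdeal this
  · intro v hv
    simp only [Set.Finite.mem_toFinset, Set.mem_ofPred_eq] at hv
    obtain ⟨P, rfl⟩ := exists_prime_of_zero v hv
    have := liesOver_of_ord_pos ht P hv
    exact ⟨P.asIdeal, (IsDedekindDomain.mem_primesOverFinset_iff hne _).mpr ⟨P.isPrime, this⟩, rfl⟩
  · intro P hP
    have := (hmem P hP).2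
    let Q : HeightOneSpectrum (Bint K t) := ⟨P, (hmem P hP).1, hbot P hP⟩
    have hQ : Q.asIdeal.LiesOver (Ideal.span {tA K t}) := this
    rw [ord_t_eq ht Q, inertiaDeg_eq_one ht Q, mul_one]


end Fermat.Agent.S24.FF
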