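import Fermat.Agent.S24.FF.Transc

/-! # S24 / FF / package FF-Res : residue fields of places are `K` (K algebraically closed)

Sketch: `π` a uniformizer is transcendental and `F/K(π)` is finite, so `f ∈ O_v` satisfies
`P(π, f) = 0` with `P ∈ K[X][Y]`, `P(0, Y) ≠ 0`; reducing mod `𝔪_v` shows the residue of `f` is
algebraic over `K`. -/

set_option autoImplicit false

namespace Fermat.Agent.S24.FF

open AlgebraicCurve IntermediateField

variable {K F : Type*} [Field K] [Field F] [Algebra K F]

section bivariate

open Polynomial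

open scoped IntermediateField.algebraAdjoinAdjoin in
/-- If `F` is finite over `K(π)`, every `f` satisfies a nontrivial relation `Q(π, f) = 0`. -/
theorem exists_bivariate_eval₂_eq_zero (π f : F) [FiniteDimensional K⟮π⟯ F] :
    ∃ Q : K[X][X], Q ≠ 0 ∧ Q.eval₂ ((aeval π : K[X] →ₐ[K] F) : K[X] →+* F) f = 0 := by
  have h1 : IsAlgebraic K⟮π⟯ f := Algebra.IsAlgebraic.isAlgebraic f
  have h2 : IsAlgebraic (Algebra.adjoin K {π}) f :=
    (IsFractionRing.isAlgebraic_iff (Algebra.adjoin K {π}) K⟮π⟯ F).mpr h1
  obtain ⟨p, hp0, hp⟩ := h2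
  set φ' : K[X] →ₐ[K] Algebra.adjoin K {π} :=
    aeval (⟨π, Algebra.self_mem_adjoin_singleton K π⟩ : Algebra.adjoin K {π}) with hφ'
  have hcoe : ∀ q : K[X], ((φ' q : Algebra.adjoin K {π}) : F) = aeval π q := fun q => by
    rw [hφ', Polynomial.aeval_subalgebra_coe]
  have hsurj : Function.Surjective (φ' : K[X] →+* Algebra.adjoin K {π}) := by
    rintro ⟨a, ha⟩
    rw [Algebra.adjoin_singleton_eq_range_aeval] at ha
    obtain ⟨q, hq⟩ := ha
    exact ⟨q, Subtype.ext ((hcoe q).trans hq)⟩
  obtain ⟨Q, hQ⟩ := Polynomial.map_surjective _ hsurj p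
  refine ⟨Q, fun h => hp0 (by rw [← hQ, h, Polynomial.map_zero]), ?_⟩
  have hcomp : (algebraMap (Algebra.adjoin K {π}) F).comp (φ' : K[X] →+* Algebra.adjoin K {π})
      = ((aeval π : K[X] →ₐ[K] F) : K[X] →+* F) := RingHom.ext fun q => hcoe q
  rw [← hcomp, ← Polynomial.eval₂_map, hQ]
  exact hp

/-- Same as above, but moreover `Q(0, Y) ≠ 0`. -/
theorem exists_bivariate_map_eval_ne_zero {π : F} (hπ : π ≠ 0) (f : F)
    [FiniteDimensional K⟮π⟯ F] :
    ∃ Q : K[X][X], Q.map (evalRingHom (0 : K)) ≠ 0 ∧
      Q.eval₂ ((aeval π : K[X] →ₐ[K] F) : K[X] →+* F) f = 0 := by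
  obtain ⟨Q, hQ0, hQ⟩ := exists_bivariate_eval₂_eq_zero (K := K) π f
  have hnu : ¬ IsUnit (C (X : K[X])) := by
    rw [Polynomial.isUnit_C]
    exact Polynomial.not_isUnit_X
  obtain ⟨n, Q₁, hnd, rfl⟩ := WfDvdMonoid.max_power_factor' hQ0 hnu
  refine ⟨Q₁, fun h => hnd ?_, ?_⟩
  · rw [Polynomial.C_dvd_iff_dvd_coeff]
    intro i
    rw [Polynomial.X_dvd_iff, Polynomial.coeff_zero_eq_eval_zero]
    have := congrArg (fun q => q.coeff i) h
    simpa using this
  · rw [Polynomial.eval₂_mul, Polynomial.eval₂_pow, Polynomial.eval₂_C] at hQ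
    have hX : ((aeval π : K[X] →ₐ[K] F) : K[X] →+* F) X = π := by simp
    rw [hX] at hQ
    exact (mul_eq_zero.mp hQ).resolve_left (pow_ne_zero n hπ)

end bivariate

theorem ord_pos_of_mem_maximalIdeal (v : Place K F) {a : v.toValuationSubring}
    (ha : a ∈ IsLocalRing.maximalIdeal v.toValuationSubring) (ha0 : a ≠ 0) :
    0 < v.ord (a : F) := by
  have h0 : 0 ≤ v.ord (a : F) := ord_nonneg_of_mem v a.2
  refine lt_of_le_of_ne h0 fun h => ?_
  have haF : (a : F) ≠ 0 := by simpa using ha0
  have hne := v.adicValuation_ne_zero haF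
  have h1 : v.adicValuation (a : F) = 1 := by
    have hlog : WithZero.log (v.adicValuation (a : F)) = 0 := by
      unfold Place.ord at h
      omega
    rw [← WithZero.exp_log hne, hlog, WithZero.exp_zero]
  exact ha ((v.adicValuation_coe_eq_one_iff a).mp h1)

theorem isAlgebraic_residueField [IsFF1 K F] (v : Place K F) :
    Algebra.IsAlgebraic K v.ResidueField := by
  classical
  obtain ⟨π, hπ⟩ := IsDiscreteValuationRing.exists_irreducible v.toValuationSubring
  have hord : v.ord (π : F) = 1 := v.ord_coe_irreducible hπ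
  have hπ0 : (π : F) ≠ 0 := ne_zero_of_ord_ne_zero v (by rw [hord]; exact one_ne_zero)
  have htr : Transcendental K (π : F) :=
    transcendental_of_ord_ne_zero v (by rw [hord]; exact one_ne_zero)
  have : FiniteDimensional K⟮(π : F)⟯ F := finiteDimensional_adjoin_of_transcendental htr
  refine ⟨fun x => ?_⟩
  obtain ⟨f, rfl⟩ := IsLocalRing.residue_surjective x
  obtain ⟨Q, hQ0, hQ⟩ := exists_bivariate_map_eval_ne_zero (K := K) hπ0 (f : F)
  refine ⟨Q.map (Polynomial.evalRingHom (0 : K)), hQ0, ?_⟩
  -- the relation holds in `O_v`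
  have hQ' : Q.eval₂ ((Polynomial.aeval π : Polynomial K →ₐ[K] v.toValuationSubring) :
      Polynomial K →+* v.toValuationSubring) f = 0 := by
    apply Subtype.val_injective
    have hcomp : (v.toValuationSubring.subtype).comp
        ((Polynomial.aeval π : Polynomial K →ₐ[K] v.toValuationSubring) :
          Polynomial K →+* v.toValuationSubring)
        = ((Polynomial.aeval (π : F) : Polynomial K →ₐ[K] F) : Polynomial K →+* F) := by
      apply Polynomial.ringHom_ext
      · intro a
        simp
      · simp
    have := Polynomial.hom_eval₂ Q ((Polynomial.aeval π : Polynomial K →ₐ[K] v.toValuationSubring) :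
      Polynomial K →+* v.toValuationSubring) (v.toValuationSubring.subtype) f
    rw [hcomp] at this
    exact this.trans hQ
  -- apply the residue map
  have hres := congrArg (IsLocalRing.residue v.toValuationSubring) hQ'
  rw [Polynomial.hom_eval₂, map_zero] at hres
  have hcomp2 : (IsLocalRing.residue v.toValuationSubring).comp
      ((Polynomial.aeval π : Polynomial K →ₐ[K] v.toValuationSubring) :
        Polynomial K →+* v.toValuationSubring)
      = (algebraMap K v.ResidueField).comp (Polynomial.evalRingHom (0 : K)) := by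
    apply Polynomial.ringHom_ext
    · intro a
      simp
      rfl
    · have : IsLocalRing.residue v.toValuationSubring π = 0 := by
        rw [IsLocalRing.residue_eq_zero_iff]
        exact hπ.not_isUnit
      simp [this]
  rw [hcomp2] at hres
  rw [Polynomial.aeval_def, Polynomial.eval₂_map]
  exact hres

theorem algebraMap_residueField_bijective [IsAlgClosed K] [IsFF1 K F] (v : Place K F) :
    Function.Bijective (algebraMap K v.ResidueField) := by
  have := isAlgebraic_residueField (K := K) v
  have : Algebra.IsIntegral K v.ResidueField := Algebra.IsAlgebraic.isIntegral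
  exact IsAlgClosed.algebraMap_bijective_of_isIntegral

/-- (P2) every element of `O_v` is congruent to a constant. -/
theorem exists_ord_sub_pos [IsAlgClosed K] [IsFF1 K F] (v : Place K F) {f : F}
    (hf : 0 ≤ v.ord f) : ∃ c : K, f = algebraMap K F c ∨ 0 < v.ord (f - algebraMap K F c) := by
  have hmem : f ∈ v.toValuationSubring := mem_toValuationSubring_of_ord_nonneg v hf
  obtain ⟨c, hc⟩ := (algebraMap_residueField_bijective (K := K) v).2
    (IsLocalRing.residue v.toValuationSubring ⟨f, hmem⟩)
  refine ⟨c, ?_⟩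
  by_cases h : f = algebraMap K F c
  · exact Or.inl h
  · right
    set a : v.toValuationSubring := ⟨f, hmem⟩ - algebraMap K v.toValuationSubring c with ha
    have haF : (a : F) = f - algebraMap K F c := rfl
    have hmax : a ∈ IsLocalRing.maximalIdeal v.toValuationSubring := by
      rw [← IsLocalRing.residue_eq_zero_iff, ha, map_sub, ← hc, sub_eq_zero]
      rfl
    have ha0 : a ≠ 0 := by
      intro h0
      apply h
      have := congrArg Subtype.val h0
      rw [haF] at this
      exact sub_eq_zero.mp this
    rw [← haF]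
    exact ord_pos_of_mem_maximalIdeal v hmax ha0

/-- (P2') all places have degree one. -/
theorem deg_eq_one [IsAlgClosed K] [IsFF1 K F] (v : Place K F) : v.deg = 1 := by
  have hbij := algebraMap_residueField_bijective (K := K) v
  show Module.finrank K v.ResidueField = 1
  rw [← Module.finrank_self K]
  exact ((AlgEquiv.ofBijective (Algebra.ofId K v.ResidueField) hbij).toLinearEquiv.finrank_eq).symm

end Fermat.Agent.S24.FF
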