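import Fermat.Agent.S24.FF.LocalCountNorm

/-!
# S24 / FF / package FF-L : the abstract local counting lemma

`n = [F : K(t)]` distinct `K`-embeddings `φ i : F → 𝓛` with the same value at `t`, a `ℤ`-valued
valuation `W` on `𝓛` with `W (t) = exp (-s) < 1`, and a group element `g` permuting the index set
such that `W ∘ φ (g • i) = W ∘ φ i` and `s ∣ period g i * ord (φ i f)`.
Then the places of `F` over `t = 0` are in bijection with the `⟨g⟩`-orbits on `I`.

Proof. `w i := W.comap (φ i)` is a nontrivial valuation trivial on `K`, so defines a place `v i`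
with `0 < (v i).ord t`, `-log (w i f) = m i * (v i).ord f`, `m i > 0`, `e i := (v i).ord t = s / m i`.
(1) taking `f` with `(v i).ord f = 1`: `s ∣ period g i * m i`, so `e i ≤ period g i`.
(2) `v (g • i) = v i`, so `v` factors through the orbit space.
(3) every place `v` with `0 < v.ord t` is some `v i` (`exists_index_of_place`).
(4) `n = ∑_v e_v ≤ ∑_v period ≤ ∑_orbits period = n`, so orbits ↔ places.
-/

set_option autoImplicit false

namespace Fermat.Agent.S24.FF

open AlgebraicCurve IntermediateField

variable {K F : Type*} [Field K] [Field F] [Algebra K F]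

/-- combinatorial core of the counting argument. -/
theorem injective_of_sum_eq {Q P : Type*} [Fintype Q] [Fintype P] (π : Q → P)
    (hπ : Function.Surjective π) (size : Q → ℕ) (hsize : ∀ q, 0 < size q) (e : P → ℕ)
    (hle : ∀ q, e (π q) ≤ size q) (hsum : ∑ q, size q = ∑ p, e p) : Function.Injective π := by
  classical
  set σ := Function.surjInv hπ with hσ
  have hσπ : ∀ p, π (σ p) = p := Function.surjInv_eq hπ
  have hσinj : Function.Injective σ := Function.injective_surjInv hπ
  have h1 : ∑ p, e p ≤ ∑ p, size (σ p) :=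
    Finset.sum_le_sum fun p _ => by have := hle (σ p); rwa [hσπ] at this
  have h2 : ∑ q ∈ Finset.univ.image σ, size q = ∑ p, size (σ p) :=
    Finset.sum_image fun a _ b _ hab => hσinj hab
  have h3 : ∀ q, q ∈ Finset.univ.image σ := by
    intro q
    by_contra hq
    have := Finset.sum_lt_sum_of_subset (f := size) (Finset.subset_univ (Finset.univ.image σ))
      (Finset.mem_univ q) hq (hsize q) (fun _ _ _ => Nat.zero_le _)
    omega
  intro q₁ q₂ h
  obtain ⟨p₁, -, rfl⟩ := Finset.mem_image.mp (h3 q₁)
  obtain ⟨p₂, -, rfl⟩ := Finset.mem_image.mp (h3 q₂)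
  rw [hσπ, hσπ] at h
  rw [h]

/-- the place attached to an embedding into a valued field. -/
theorem exists_place_comap [CharZero K] [IsFF1 K F] {t : F} (ht0 : t ≠ 0)
    {𝓛 : Type*} [Field 𝓛] [Algebra K 𝓛] (ψ : F →ₐ[K] 𝓛)
    (W : Valuation 𝓛 (WithZero (Multiplicative ℤ)))
    (hWK : ∀ a : K, a ≠ 0 → W (algebraMap K 𝓛 a) = 1) (hWt : W (ψ t) < 1) :
    ∃ w : Place K F, w.toValuationSubring = (W.comap ψ.toRingHom).valuationSubring := by
  apply exists_place_of_valuationSubring
  · intro a
    rw [Valuation.mem_valuationSubring_iff, Valuation.comap_apply]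
    rcases eq_or_ne a 0 with rfl | ha
    · simp
    · have := hWK a ha
      simp [this]
  · intro htop
    have h1 : t⁻¹ ∈ (W.comap ψ.toRingHom).valuationSubring := by rw [htop]; trivial
    rw [Valuation.mem_valuationSubring_iff, map_inv₀, Valuation.comap_apply] at h1
    have h3 : W (ψ t) ≠ 0 := (Valuation.ne_zero_iff _).mpr (by simpa using ht0)
    have h4 : 1 < (W (ψ t))⁻¹ := (one_lt_inv₀ (zero_lt_iff.mpr h3)).mpr hWt
    exact absurd h1 (not_le.mpr h4)

theorem card_places_eq_card_orbits [IsAlgClosed K] [CharZero K] [IsFF1 K F]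
    {t : F} (ht : Transcendental K t)
    {𝓛 : Type*} [Field 𝓛] [Algebra K 𝓛]
    {I : Type*} [Finite I] {G : Type*} [Group G] [MulAction G I]
    (φ : I → F →ₐ[K] 𝓛) (hφinj : Function.Injective φ) (hφt : ∀ i j, φ i t = φ j t)
    (hI : Nat.card I = Module.finrank K⟮t⟯ F)
    (W : Valuation 𝓛 (WithZero (Multiplicative ℤ)))
    (hWK : ∀ a : K, a ≠ 0 → W (algebraMap K 𝓛 a) = 1)
    (s : ℕ) (hs : 0 < s) (hWt : ∀ i, W (φ i t) = WithZero.exp (-(s : ℤ)))
    (g : G) (hg : ∀ i f, W (φ (g • i) f) = W (φ i f))
    (hdiv : ∀ i (f : F), f ≠ 0 →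
      (s : ℤ) ∣ (MulAction.period g i : ℤ) * WithZero.log (W (φ i f))) :
    Nat.card {v : Place K F // 0 < v.ord t}
      = Nat.card (MulAction.orbitRel.Quotient (Subgroup.zpowers g) I) := by
  classical
  have : Fintype I := Fintype.ofFinite I
  have ht0 : t ≠ 0 := fun h => ht (h ▸ isAlgebraic_zero)
  have hWt' : ∀ i, W (φ i t) < 1 := by
    intro i
    rw [hWt i, ← WithZero.exp_zero, WithZero.exp_lt_exp]
    omega
  -- the places attached to the embeddings
  choose w hw using fun i => exists_place_comap ht0 (φ i) W hWK (hWt' i)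
  choose m hm0 hm using fun i =>
    exists_mul_ord_of_valuationSubring_eq (w i) (W.comap (φ i).toRingHom) (hw i).symm
  have hm' : ∀ i (f : F), f ≠ 0 → - WithZero.log (W (φ i f)) = m i * (w i).ord f := hm
  have hse : ∀ i, (s : ℤ) = m i * (w i).ord t := by
    intro i
    rw [← hm' i t ht0, hWt i, WithZero.log_exp, neg_neg]
  have hwt : ∀ i, 0 < (w i).ord t := by
    intro i
    have h1 := hse i
    have h2 := hm0 i
    have h3 : (0 : ℤ) < s := by exact_mod_cast hs
    by_contra hcon
    push Not at hcon
    nlinarith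
  -- period
  have hper : ∀ i : I,
      MulAction.period g i = Fintype.card (MulAction.orbit (Subgroup.zpowers g) i) :=
    fun i => MulAction.minimalPeriod_eq_card g i
  have hperpos : ∀ i : I, 0 < MulAction.period g i := by
    intro i
    rw [hper i]
    exact Fintype.card_pos_iff.mpr ⟨⟨i, MulAction.mem_orbit_self i⟩⟩
  -- (1)
  have hle : ∀ i, (w i).ord t ≤ MulAction.period g i := by
    intro i
    obtain ⟨π, hπ⟩ := exists_ord_eq_one (w i)
    have hπ0 : π ≠ 0 := ne_zero_of_ord_ne_zero (w i) (by omega)
    have h1 := hdiv i π hπ0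
    have h2 := hm' i π hπ0
    rw [hπ, mul_one] at h2
    have h3 : WithZero.log (W (φ i π)) = - m i := by omega
    rw [h3, hse i, mul_neg, dvd_neg, mul_comm (MulAction.period g i : ℤ)] at h1
    have h4 : (w i).ord t ∣ (MulAction.period g i : ℤ) :=
      (mul_dvd_mul_iff_left (hm0 i).ne').mp h1
    exact Int.le_of_dvd (by exact_mod_cast hperpos i) h4
  -- (2)
  have hwg : ∀ i, w (g • i) = w i := by
    intro i
    apply Place.ext
    rw [hw, hw]
    ext f
    simp only [Valuation.mem_valuationSubring_iff, Valuation.comap_apply]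
    exact (congrArg (· ≤ 1) (hg i f)).to_iff
  let H : Subgroup G :=
    { carrier := {x | ∀ i, w (x • i) = w i}
      mul_mem' := fun {a b} ha hb i => by rw [mul_smul, ha, hb]
      one_mem' := fun i => by rw [one_smul]
      inv_mem' := fun {a} ha i => by
        have := ha (a⁻¹ • i)
        rw [smul_inv_smul] at this
        exact this.symm }
  have hH : Subgroup.zpowers g ≤ H := by
    rw [Subgroup.zpowers_le]
    exact hwg
  -- the map from orbits to places
  let P := {v : Place K F // 0 < v.ord t}
  let Q := MulAction.orbitRel.Quotient (Subgroup.zpowers g) I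
  let π : Q → P := Quotient.lift (fun i => (⟨w i, hwt i⟩ : P)) (by
    rintro a b ⟨x, rfl⟩
    exact Subtype.ext (hH x.2 b))
  have hπsurj : Function.Surjective π := by
    rintro ⟨v, hv⟩
    obtain ⟨i, hi⟩ := exists_index_of_place ht φ hφinj hφt hI W hWK hWt' v hv
    refine ⟨Quotient.mk'' i, Subtype.ext ?_⟩
    apply Place.ext
    show (w i).toValuationSubring = v.toValuationSubring
    rw [hw i, hi]
  have : Fintype P := (finite_zeros ht).fintype
  have : Fintype Q := Fintype.ofFinite Q
  have hsumP : ∑ p : P, (p.1.ord t).toNat = Module.finrank K⟮t⟯ F := by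
    have h1 := sum_ord_zeros ht
    have h2 : ∑ p : P, ((p.1.ord t).toNat : ℤ) = ∑ v ∈ (finite_zeros ht).toFinset, v.ord t := by
      rw [← Finset.sum_coe_sort (finite_zeros ht).toFinset (fun v => v.ord t)]
      refine Fintype.sum_equiv (Equiv.subtypeEquivRight (fun v => by simp)) _ _ ?_
      rintro ⟨v, hv⟩
      simp only [Equiv.subtypeEquivRight_apply_coe]
      exact Int.toNat_of_nonneg (le_of_lt hv)
    have h3 : ((∑ p : P, (p.1.ord t).toNat : ℕ) : ℤ) = (Module.finrank K⟮t⟯ F : ℤ) := by
      rw [← h1, ← h2]; push_cast; rfl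
    exact_mod_cast h3
  have hsumQ : ∑ q : Q, Nat.card q.orbit = Module.finrank K⟮t⟯ F := by
    rw [← hI, Nat.card_congr (MulAction.selfEquivSigmaOrbits' (Subgroup.zpowers g) I),
      Nat.card_sigma]
  have hinj : Function.Injective π := by
    refine injective_of_sum_eq π hπsurj (fun q => Nat.card q.orbit) ?_
      (fun p => (p.1.ord t).toNat) ?_ (hsumQ.trans hsumP.symm)
    · intro q
      induction q using Quotient.inductionOn' with
      | h i =>
        rw [MulAction.orbitRel.Quotient.orbit_mk, Nat.card_eq_fintype_card, ← hper i]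
        exact hperpos i
    · intro q
      induction q using Quotient.inductionOn' with
      | h i =>
        rw [MulAction.orbitRel.Quotient.orbit_mk, Nat.card_eq_fintype_card, ← hper i]
        show ((w i).ord t).toNat ≤ _
        have := hle i
        omega
  exact (Nat.card_congr (Equiv.ofBijective π ⟨hinj, hπsurj⟩)).symm

end Fermat.Agent.S24.FF
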