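import Mathlib
import Fermat.Prelude.Def_AlgebraicCurve_CanonicalDivisor

/-!
# S24 / FF : general function fields of one variable -- basic facts on `Place.ord`
-/

set_option autoImplicit false

namespace Fermat.Agent.S24.FF

open AlgebraicCurve IntermediateField

variable {K F : Type*} [Field K] [Field F] [Algebra K F]

/-- `F/K` is a function field in one variable (finite over a purely transcendental `K(t)`). -/
class IsFF1 (K F : Type*) [Field K] [Field F] [Algebra K F] : Prop where
  exists_transcendental : ∃ t : F, Transcendental K t ∧ FiniteDimensional K⟮t⟯ F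

theorem ord_nonneg_of_mem (v : Place K F) {f : F} (hf : f ∈ v.toValuationSubring) :
    0 ≤ v.ord f := by
  have h := v.adicValuation_coe ⟨f, hf⟩
  have h1 : v.adicValuation f ≤ 1 := by
    have := v.heightOneSpectrum.intValuation_le_one ⟨f, hf⟩
    simpa [h] using this
  unfold Place.ord
  rcases eq_or_ne (v.adicValuation f) 0 with h0 | h0
  · simp [h0]
  · have := (WithZero.log_le_log h0 one_ne_zero).mpr h1
    simp at this
    omega

theorem mem_toValuationSubring_iff (v : Place K F) {f : F} (hf : f ≠ 0) :
    f ∈ v.toValuationSubring ↔ 0 ≤ v.ord f := by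
  constructor
  · exact ord_nonneg_of_mem v
  · intro h
    obtain ⟨π, hπ⟩ := IsDiscreteValuationRing.exists_irreducible v.toValuationSubring
    obtain ⟨u, hu⟩ := v.exists_unit_mul_zpow hf hπ
    rw [hu]
    obtain ⟨n, hn⟩ := Int.eq_ofNat_of_zero_le h
    rw [hn, zpow_natCast]
    exact mul_mem (u : v.toValuationSubring).2 (pow_mem π.2 n)

theorem mem_toValuationSubring_of_ord_nonneg (v : Place K F) {f : F} (h : 0 ≤ v.ord f) :
    f ∈ v.toValuationSubring := by
  rcases eq_or_ne f 0 with rfl | hf
  · exact zero_mem _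
  · exact (mem_toValuationSubring_iff v hf).mpr h

theorem ord_algebraMap (v : Place K F) (a : K) : v.ord (algebraMap K F a) = 0 := by
  rcases eq_or_ne a 0 with rfl | ha
  · simp
  · have h1 := ord_nonneg_of_mem v (v.algebraMap_mem' a)
    have h2 := ord_nonneg_of_mem v (v.algebraMap_mem' a⁻¹)
    rw [map_inv₀, v.ord_inv] at h2
    omega

theorem ord_neg (v : Place K F) (f : F) : v.ord (-f) = v.ord f := by
  simp [Place.ord]

theorem min_ord_le_ord_add (v : Place K F) {f g : F} (hfg : f + g ≠ 0) :
    min (v.ord f) (v.ord g) ≤ v.ord (f + g) := by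
  rcases eq_or_ne f 0 with rfl | hf
  · simp
  rcases eq_or_ne g 0 with rfl | hg
  · simp
  have h := v.adicValuation.map_add f g
  have hf' := v.adicValuation_ne_zero hf
  have hg' := v.adicValuation_ne_zero hg
  have hfg' := v.adicValuation_ne_zero hfg
  unfold Place.ord
  rcases le_max_iff.mp h with h1 | h1
  · have := (WithZero.log_le_log hfg' hf').mpr h1
    exact le_trans (min_le_left _ _) (by omega)
  · have := (WithZero.log_le_log hfg' hg').mpr h1
    exact le_trans (min_le_right _ _) (by omega)

theorem ord_add_eq_of_lt (v : Place K F) {f g : F} (hf : f ≠ 0) (hg : g ≠ 0)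
    (h : v.ord f < v.ord g) : v.ord (f + g) = v.ord f := by
  have hf' := v.adicValuation_ne_zero hf
  have hg' := v.adicValuation_ne_zero hg
  have hlt : v.adicValuation g < v.adicValuation f := by
    rw [← WithZero.log_lt_log hg' hf']
    unfold Place.ord at h
    omega
  unfold Place.ord
  rw [Valuation.map_add_eq_of_lt_left _ hlt]

theorem exists_ord_eq_one (v : Place K F) : ∃ π : F, v.ord π = 1 := by
  obtain ⟨π, hπ⟩ := IsDiscreteValuationRing.exists_irreducible v.toValuationSubring
  exact ⟨π, v.ord_coe_irreducible hπ⟩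

theorem ord_pow (v : Place K F) (f : F) (n : ℕ) : v.ord (f ^ n) = n * v.ord f := by
  have := v.ord_zpow f n
  simpa using this

theorem ne_zero_of_ord_ne_zero (v : Place K F) {f : F} (h : v.ord f ≠ 0) : f ≠ 0 := by
  rintro rfl
  simp at h

/-- A place is determined by the sign of `ord`. -/
theorem place_ext_of_ord_nonneg {v w : Place K F}
    (h : ∀ f : F, f ≠ 0 → (0 ≤ v.ord f ↔ 0 ≤ w.ord f)) : v = w := by
  apply Place.ext
  ext f
  rcases eq_or_ne f 0 with rfl | hf
  · simp
  · rw [mem_toValuationSubring_iff v hf, mem_toValuationSubring_iff w hf, h f hf]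

/-- If a `ℤᵐ⁰`-valued valuation `μ` has the same valuation ring as the place `v`, it is a positive
integer multiple of `v.ord`. -/
theorem exists_mul_ord_of_valuationSubring_eq (v : Place K F)
    (μ : Valuation F (WithZero (Multiplicative ℤ)))
    (h : μ.valuationSubring = v.toValuationSubring) :
    ∃ m : ℤ, 0 < m ∧ ∀ f : F, f ≠ 0 → - WithZero.log (μ f) = m * v.ord f := by
  obtain ⟨π, hπ⟩ := IsDiscreteValuationRing.exists_irreducible v.toValuationSubring
  have hπ0 : (π : F) ≠ 0 := by
    simpa [ne_eq, ZeroMemClass.coe_eq_zero] using hπ.ne_zero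
  have hμπ0 : μ (π : F) ≠ 0 := (Valuation.ne_zero_iff _).mpr hπ0
  -- units of `O_v` have `μ = 1`
  have hunit : ∀ u : v.toValuationSubringˣ, μ ((u : v.toValuationSubring) : F) = 1 := by
    intro u
    have h1 : μ ((u : v.toValuationSubring) : F) ≤ 1 := by
      rw [← Valuation.mem_valuationSubring_iff, h]
      exact (u : v.toValuationSubring).2
    have h2 : μ (((u⁻¹ : v.toValuationSubringˣ) : v.toValuationSubring) : F) ≤ 1 := by
      rw [← Valuation.mem_valuationSubring_iff, h]
      exact ((u⁻¹ : v.toValuationSubringˣ) : v.toValuationSubring).2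
    have h3 : μ ((u : v.toValuationSubring) : F)
        * μ (((u⁻¹ : v.toValuationSubringˣ) : v.toValuationSubring) : F) = 1 := by
      rw [← map_mul, ← MulMemClass.coe_mul, Units.mul_inv]
      simp
    refine le_antisymm h1 ?_
    calc (1 : WithZero (Multiplicative ℤ)) = μ ((u : v.toValuationSubring) : F)
        * μ (((u⁻¹ : v.toValuationSubringˣ) : v.toValuationSubring) : F) := h3.symm
      _ ≤ μ ((u : v.toValuationSubring) : F) * 1 := by gcongr
      _ = _ := mul_one _
  -- `μ π < 1`
  have hπlt : μ (π : F) < 1 := by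
    have h1 : μ (π : F) ≤ 1 := by
      rw [← Valuation.mem_valuationSubring_iff, h]
      exact π.2
    refine lt_of_le_of_ne h1 ?_
    intro h1'
    have : (π : F)⁻¹ ∈ v.toValuationSubring := by
      have h2 : (π : F)⁻¹ ∈ μ.valuationSubring := by
        rw [Valuation.mem_valuationSubring_iff, map_inv₀, h1', inv_one]
      exact (SetLike.ext_iff.mp h _).mp h2
    have hord := ord_nonneg_of_mem v this
    rw [v.ord_inv, v.ord_coe_irreducible hπ] at hord
    omega
  refine ⟨- WithZero.log (μ (π : F)), ?_, ?_⟩
  · have := (WithZero.log_lt_log hμπ0 one_ne_zero).mpr hπlt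
    simp at this
    omega
  · intro f hf
    obtain ⟨u, hu⟩ := v.exists_unit_mul_zpow hf hπ
    conv_lhs => rw [hu]
    rw [map_mul, hunit u, one_mul, map_zpow₀, WithZero.log_zpow]
    simp only [smul_eq_mul]
    ring

end Fermat.Agent.S24.FF
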