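import Fermat.Agent.S24.FF.KaehlerLocal

/-!
# S24 / FF : degree of principal divisors, Riemann-Hurwitz in counting form
-/

set_option autoImplicit false

namespace Fermat.Agent.S24.FF

open AlgebraicCurve IntermediateField KaehlerDifferential

variable {K F : Type*} [Field K] [Field F] [Algebra K F]

/-- the degree is the plain sum of the coefficients, as all places have degree one. -/
theorem degree_eq_sum_of_support_subset [IsAlgClosed K] [IsFF1 K F] (D : Divisor K F)
    (T : Finset (Place K F)) (hT : D.support ⊆ T) : Divisor.degree D = ∑ v ∈ T, D v := by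
  have h1 : Divisor.degree D = D.sum fun v n => n * (v.deg : ℤ) := by
    simp [Divisor.degree, Finsupp.liftAddHom_apply]
  rw [h1, Finsupp.sum_of_support_subset D hT _ (by simp)]
  refine Finset.sum_congr rfl fun v _ => ?_
  rw [deg_eq_one v]; simp

theorem card_zeros [CharZero K] [IsFF1 K F] {t : F} (ht : Transcendental K t) :
    Nat.card {v : Place K F // 0 < v.ord t} = (finite_zeros ht).toFinset.card := by
  have := Set.ncard_eq_toFinset_card _ (finite_zeros ht)
  rw [← this]; rfl

/-- the set of poles of a transcendental element, as a finset. -/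
noncomputable def polesFinset [CharZero K] [IsFF1 K F] {t : F} (ht : Transcendental K t) :
    Finset (Place K F) := (finite_zeros (transcendental_inv ht)).toFinset

theorem mem_polesFinset [CharZero K] [IsFF1 K F] {t : F} (ht : Transcendental K t)
    (v : Place K F) : v ∈ polesFinset ht ↔ v.ord t < 0 := by
  simp [polesFinset, Place.ord_inv]

theorem mem_zeros [CharZero K] [IsFF1 K F] {t : F} (ht : Transcendental K t)
    (v : Place K F) : v ∈ (finite_zeros ht).toFinset ↔ 0 < v.ord t := by
  simp

theorem card_poles [CharZero K] [IsFF1 K F] {t : F} (ht : Transcendental K t) :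
    Nat.card {v : Place K F // v.ord t < 0} = (polesFinset ht).card := by
  have h := card_zeros (transcendental_inv ht)
  rw [polesFinset, ← h]
  refine Nat.card_congr (Equiv.subtypeEquivRight fun v => ?_)
  rw [Place.ord_inv]; omega

theorem sum_ord_poles [IsAlgClosed K] [CharZero K] [IsFF1 K F] {t : F}
    (ht : Transcendental K t) :
    ∑ v ∈ polesFinset ht, v.ord t = -(Module.finrank K⟮t⟯ F : ℤ) := by
  have h := sum_ord_zeros (transcendental_inv ht)
  rw [finrank_adjoin_inv] at h
  rw [← h, polesFinset, ← Finset.sum_neg_distrib]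
  refine Finset.sum_congr rfl fun v _ => ?_
  rw [Place.ord_inv]; ring

theorem ord_eq_zero_of_mem_range (v : Place K F) {f : F}
    (hf : f ∈ Set.range (algebraMap K F)) : v.ord f = 0 := by
  obtain ⟨a, rfl⟩ := hf
  exact ord_algebraMap v a

/-- (R1) principal divisors have degree zero. -/
theorem degree_eq_zero_of_principal [IsAlgClosed K] [CharZero K] [IsFF1 K F] {f : F} (hf : f ≠ 0)
    (D : Divisor K F) (hD : ∀ v, D v = v.ord f) : Divisor.degree D = 0 := by
  classical
  by_cases hc : f ∈ Set.range (algebraMap K F)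
  · have : D = 0 := by
      ext v
      rw [hD v, ord_eq_zero_of_mem_range v hc]; rfl
    rw [this, map_zero]
  · have ht : Transcendental K f := transcendental_of_not_mem_range hc
    have hsub : D.support ⊆ (finite_zeros ht).toFinset ∪ polesFinset ht := by
      intro v hv
      rw [Finsupp.mem_support_iff, hD v] at hv
      rw [Finset.mem_union, mem_zeros ht, mem_polesFinset]
      omega
    have hdisj : Disjoint (finite_zeros ht).toFinset (polesFinset ht) := by
      rw [Finset.disjoint_left]
      intro v h1 h2
      rw [mem_zeros ht] at h1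
      rw [mem_polesFinset] at h2
      omega
    rw [degree_eq_sum_of_support_subset D _ hsub, Finset.sum_union hdisj,
      Finset.sum_congr rfl fun v _ => hD v, Finset.sum_congr rfl fun v _ => hD v,
      sum_ord_zeros ht, sum_ord_poles ht]
    ring

/-- (R2) number of places over `x = c` is at most `n`, with equality iff unramified. -/
theorem ord_eq_one_of_card_eq [IsAlgClosed K] [CharZero K] [IsFF1 K F] {t : F}
    (ht : Transcendental K t)
    (h : Nat.card {v : Place K F // 0 < v.ord t} = Module.finrank K⟮t⟯ F)
    (v : Place K F) (hv : 0 < v.ord t) : v.ord t = 1 := by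
  have h1 := sum_ord_zeros ht
  rw [← h, card_zeros ht] at h1
  have h2 : ∑ w ∈ (finite_zeros ht).toFinset, (w.ord t - 1) = 0 := by
    rw [Finset.sum_sub_distrib, h1]; simp
  have h3 := (Finset.sum_eq_zero_iff_of_nonneg (fun w hw => by
    rw [mem_zeros ht] at hw; omega)).mp h2 v ((mem_zeros ht v).mpr hv)
  omega

/-- the divisor of a nonzero function. -/
theorem exists_divisor_of_ne_zero [IsAlgClosed K] [CharZero K] [IsFF1 K F] (f : F) :
    ∃ D : Divisor K F, ∀ v, D v = v.ord f := by
  classical
  by_cases hc : f ∈ Set.range (algebraMap K F)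
  · exact ⟨0, fun v => by rw [ord_eq_zero_of_mem_range v hc]; rfl⟩
  · have ht : Transcendental K f := transcendental_of_not_mem_range hc
    refine ⟨Finsupp.onFinset ((finite_zeros ht).toFinset ∪ polesFinset ht) (fun v => v.ord f) ?_,
      fun v => rfl⟩
    intro v hv
    rw [Finset.mem_union, mem_zeros ht, mem_polesFinset]
    omega

theorem D_sub_algebraMap (x : F) (c : K) :
    KaehlerDifferential.D K F (x - algebraMap K F c) = KaehlerDifferential.D K F x := by
  rw [map_sub, Derivation.map_algebraMap, sub_zero]

/-- the order of `dx` at a pole of `x`. -/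
theorem ordDifferential_D_of_pole [IsAlgClosed K] [CharZero K] [IsFF1 K F] (v : Place K F) {x : F}
    (h : v.ord x < 0) : v.ordDifferential (KaehlerDifferential.D K F x) = v.ord x - 1 :=
  ordDifferential_D v (by omega)

/-- the order of `dx` at a zero of `x - c`. -/
theorem ordDifferential_D_of_zero [IsAlgClosed K] [CharZero K] [IsFF1 K F] (v : Place K F) {x : F}
    {c : K} (h : 0 < v.ord (x - algebraMap K F c)) :
    v.ordDifferential (KaehlerDifferential.D K F x) = v.ord (x - algebraMap K F c) - 1 := by
  rw [← D_sub_algebraMap x c]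
  exact ordDifferential_D v (by omega)

theorem ord_sub_algebraMap_of_pole (v : Place K F) {x : F} (h : v.ord x < 0) (c : K) :
    v.ord (x - algebraMap K F c) = v.ord x := by
  rcases eq_or_ne c 0 with rfl | hc
  · simp
  have hx : x ≠ 0 := ne_zero_of_ord_ne_zero v (by omega)
  have hc' : -algebraMap K F c ≠ 0 := by simpa using hc
  rw [sub_eq_add_neg]
  refine ord_add_eq_of_lt v hx hc' ?_
  rw [ord_neg, ord_algebraMap]; exact h

theorem eq_of_ord_sub_pos (v : Place K F) {x : F} {c c' : K}
    (h : 0 < v.ord (x - algebraMap K F c)) (h' : 0 < v.ord (x - algebraMap K F c')) : c = c' := by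
  by_contra hne
  have h0 : algebraMap K F (c' - c) ≠ 0 := by
    simpa [sub_eq_zero] using (Ne.symm hne)
  have h1 : (x - algebraMap K F c) + -(x - algebraMap K F c') = algebraMap K F (c' - c) := by
    rw [map_sub]; ring
  have h2 := min_ord_le_ord_add v (f := x - algebraMap K F c) (g := -(x - algebraMap K F c'))
    (by rw [h1]; exact h0)
  rw [h1, ord_algebraMap, ord_neg] at h2
  omega

/-- (R3) **Riemann-Hurwitz, counting form.** -/
theorem degree_eq_of_counts [IsAlgClosed K] [CharZero K] [IsFF1 K F] {x : F}
    (hx : Transcendental K x) (S : Finset K)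
    (hS : ∀ c : K, c ∉ S →
      Nat.card {v : Place K F // 0 < v.ord (x - algebraMap K F c)} = Module.finrank K⟮x⟯ F)
    {ω : Ω[F⁄K]} (hω : ω ≠ 0) (D : Divisor K F) (hD : ∀ v, D v = v.ordDifferential ω) :
    Divisor.degree D = -2 * (Module.finrank K⟮x⟯ F : ℤ)
      + ∑ c ∈ S, ((Module.finrank K⟮x⟯ F : ℤ)
          - (Nat.card {v : Place K F // 0 < v.ord (x - algebraMap K F c)} : ℤ))
      + ((Module.finrank K⟮x⟯ F : ℤ) - (Nat.card {v : Place K F // v.ord x < 0} : ℤ)) := by
  classical
  set n : ℤ := (Module.finrank K⟮x⟯ F : ℤ) with hn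
  -- `ω = f dx`
  obtain ⟨f, hf⟩ : ∃ f : F, f • KaehlerDifferential.D K F x = ω := by
    have : ω ∈ Submodule.span F {KaehlerDifferential.D K F x} := by
      rw [span_D_eq_top hx]; exact Submodule.mem_top
    exact Submodule.mem_span_singleton.mp this
  have hf0 : f ≠ 0 := by
    rintro rfl
    exact hω (by rw [← hf, zero_smul])
  obtain ⟨Df, hDf⟩ := exists_divisor_of_ne_zero (K := K) f
  have hdegf : Divisor.degree Df = 0 := degree_eq_zero_of_principal hf0 Df hDf
  set E : Divisor K F := D - Df with hE
  have hEv : ∀ v, E v = v.ordDifferential (KaehlerDifferential.D K F x) := by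
    intro v
    rw [hE, Finsupp.sub_apply, hD v, hDf v, ← hf, ordDifferential_smul_D v hf0 hx]
    ring
  have hdeg : Divisor.degree D = Divisor.degree E := by
    rw [hE, map_sub, hdegf, sub_zero]
  have htc : ∀ c : K, Transcendental K (x - algebraMap K F c) :=
    fun c => transcendental_sub_algebraMap hx c
  set Z : K → Finset (Place K F) := fun c => (finite_zeros (htc c)).toFinset with hZ
  have hmemZ : ∀ c v, v ∈ Z c ↔ 0 < v.ord (x - algebraMap K F c) := fun c v => mem_zeros (htc c) v
  set T : Finset (Place K F) := polesFinset hx ∪ S.biUnion Z with hTdef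
  have hsub : E.support ⊆ T := by
    intro v hv
    rw [Finsupp.mem_support_iff, hEv v] at hv
    rw [hTdef, Finset.mem_union, mem_polesFinset, Finset.mem_biUnion]
    by_cases hpole : v.ord x < 0
    · exact Or.inl hpole
    · right
      obtain ⟨c, hc | hc⟩ := exists_ord_sub_pos v (f := x) (by omega)
      · exact absurd (hc ▸ isAlgebraic_algebraMap c) hx
      · refine ⟨c, ?_, (hmemZ c v).mpr hc⟩
        by_contra hcS
        have h1 := ord_eq_one_of_card_eq (htc c)
          (by rw [hS c hcS, finrank_adjoin_sub_algebraMap]) v hc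
        rw [ordDifferential_D_of_zero v hc, h1] at hv
        exact hv rfl
  have hdisj1 : Disjoint (polesFinset hx) (S.biUnion Z) := by
    rw [Finset.disjoint_left]
    intro v h1 h2
    rw [mem_polesFinset] at h1
    obtain ⟨c, -, hc⟩ := Finset.mem_biUnion.mp h2
    rw [hmemZ, ord_sub_algebraMap_of_pole v h1] at hc
    omega
  have hdisj2 : (S : Set K).PairwiseDisjoint Z := by
    intro c _ c' _ hne
    rw [Function.onFun, Finset.disjoint_left]
    intro v h1 h2
    exact hne (eq_of_ord_sub_pos v ((hmemZ c v).mp h1) ((hmemZ c' v).mp h2))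
  have hpoles : ∑ v ∈ polesFinset hx, E v = -n - (Nat.card {v : Place K F // v.ord x < 0} : ℤ) := by
    rw [card_poles hx, ← sum_ord_poles hx]
    rw [Finset.card_eq_sum_ones, Nat.cast_sum, ← Finset.sum_sub_distrib]
    refine Finset.sum_congr rfl fun v hv => ?_
    rw [hEv v, ordDifferential_D_of_pole v ((mem_polesFinset hx v).mp hv)]
    simp
  have hzeros : ∀ c, ∑ v ∈ Z c, E v =
      n - (Nat.card {v : Place K F // 0 < v.ord (x - algebraMap K F c)} : ℤ) := by
    intro c
    rw [card_zeros (htc c), hn, ← finrank_adjoin_sub_algebraMap x c, ← sum_ord_zeros (htc c)]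
    rw [Finset.card_eq_sum_ones, Nat.cast_sum, ← Finset.sum_sub_distrib]
    refine Finset.sum_congr rfl fun v hv => ?_
    rw [hEv v, ordDifferential_D_of_zero v ((hmemZ c v).mp hv)]
    simp
  rw [hdeg, degree_eq_sum_of_support_subset E T hsub, hTdef, Finset.sum_union hdisj1,
    Finset.sum_biUnion hdisj2, hpoles, Finset.sum_congr rfl fun c _ => hzeros c]
  ring

/-- (R4) the form used in the final assembly. -/
theorem genus_eq_of_counts [IsAlgClosed K] [CharZero K] [IsFF1 K F]
    [HasCanonicalDivisor (K := K) (F := F)] {x : F}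
    (hx : Transcendental K x) (S : Finset K)
    (hS : ∀ c : K, c ∉ S →
      Nat.card {v : Place K F // 0 < v.ord (x - algebraMap K F c)} = Module.finrank K⟮x⟯ F) :
    genus K F = (-2 * (Module.finrank K⟮x⟯ F : ℤ)
      + ∑ c ∈ S, ((Module.finrank K⟮x⟯ F : ℤ)
          - (Nat.card {v : Place K F // 0 < v.ord (x - algebraMap K F c)} : ℤ))
      + ((Module.finrank K⟮x⟯ F : ℤ) - (Nat.card {v : Place K F // v.ord x < 0} : ℤ)) + 2).toNat / 2 := by
  have hex : ∃ ω : Ω[F⁄K], ω ≠ 0 := by
    have := nontrivial_kaehler (K := K) (F := F)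
    exact exists_ne 0
  rw [genus, dif_pos hex,
    degree_eq_of_counts hx S hS hex.choose_spec _ (canonicalDivisorOf_apply hex.choose_spec)]

end Fermat.Agent.S24.FF
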