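import Fermat.Agent.S24.FF.Transc

/-! # S24 / FF / package FF-KF : `Ω[F/K]` is one-dimensional, spanned by `dt` (char 0) -/

set_option autoImplicit false

namespace Fermat.Agent.S24.FF

open AlgebraicCurve IntermediateField KaehlerDifferential

variable {K F : Type*} [Field K] [Field F] [Algebra K F]

open Polynomial TensorProduct in
/-- Key: for `t` transcendental, there is an `F`-linear iso `Ω[F/K] ≃ F` sending `dt` to `1`. -/
theorem exists_kaehler_equiv [CharZero K] [IsFF1 K F] {t : F} (ht : Transcendental K t) :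
    ∃ e : Ω[F⁄K] ≃ₗ[F] F, e (KaehlerDifferential.D K F t) = 1 := by
  classical
  have hfin : FiniteDimensional K⟮t⟯ F := finiteDimensional_adjoin_of_transcendental ht
  -- algebra structures over `K[X]`
  let tt : K⟮t⟯ := ⟨t, mem_adjoin_simple_self K t⟩
  let algL : Algebra K[X] K⟮t⟯ := (aeval tt).toRingHom.toAlgebra
  let algF : Algebra K[X] F := (aeval t).toRingHom.toAlgebra
  have hL : ∀ p : K[X], algebraMap K[X] K⟮t⟯ p = aeval tt p := fun _ => rfl
  have hF : ∀ p : K[X], algebraMap K[X] F p = aeval t p := fun _ => rfl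
  have hcoe : ∀ p : K[X], ((aeval tt p : K⟮t⟯) : F) = aeval t p := by
    intro p
    have := (aeval_algebraMap_apply F tt p)
    simpa [tt] using this.symm
  have tow1 : IsScalarTower K K[X] F := IsScalarTower.of_algebraMap_eq fun r => by
    rw [hF, ← Polynomial.C_eq_algebraMap, aeval_C]
  have tow2 : IsScalarTower K[X] K⟮t⟯ F := IsScalarTower.of_algebraMap_eq fun p => by
    rw [hF, hL]; exact (hcoe p).symm
  have tow3 : IsScalarTower K K[X] K⟮t⟯ := IsScalarTower.of_algebraMap_eq fun r => by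
    rw [hL, ← Polynomial.C_eq_algebraMap, aeval_C]
  have hinj : Function.Injective (algebraMap K[X] K⟮t⟯) := by
    intro p q hpq
    have h1 : aeval t p = aeval t q := by
      rw [← hcoe, ← hcoe, ← hL, ← hL, hpq]
    exact (transcendental_iff_injective.mp ht) h1
  have : FaithfulSMul K[X] K⟮t⟯ := (faithfulSMul_iff_algebraMap_injective _ _).mpr hinj
  have : IsFractionRing K[X] K⟮t⟯ := IsFractionRing.of_field K[X] K⟮t⟯ (by
    rintro ⟨z, hz⟩
    obtain ⟨r, s, h⟩ := (mem_adjoin_simple_iff K z).mp hz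
    refine ⟨r, s, Subtype.ext ?_⟩
    simp only [hL]
    push_cast
    rw [hcoe, hcoe, h])
  have : Algebra.FormallyEtale K[X] K⟮t⟯ :=
    Algebra.FormallyEtale.of_isLocalization (nonZeroDivisors K[X])
  have : Algebra.IsSeparable K⟮t⟯ F := inferInstance
  have : Algebra.FormallyEtale K⟮t⟯ F := Algebra.FormallyEtale.of_isSeparable _ _
  have : Algebra.FormallyEtale K[X] F := Algebra.FormallyEtale.comp K[X] K⟮t⟯ F
  let e1 : F ⊗[K[X]] Ω[K[X]⁄K] ≃ₗ[F] Ω[F⁄K] := tensorKaehlerEquivOfFormallyEtale K K[X] F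
  let e2 : F ⊗[K[X]] Ω[K[X]⁄K] ≃ₗ[F] F ⊗[K[X]] K[X] :=
    TensorProduct.AlgebraTensorModule.congr (LinearEquiv.refl F F) (polynomialEquiv K)
  let e3 : F ⊗[K[X]] K[X] ≃ₗ[F] F := TensorProduct.AlgebraTensorModule.rid K[X] F F
  refine ⟨e1.symm ≪≫ₗ e2 ≪≫ₗ e3, ?_⟩
  have h1 : e1.symm (KaehlerDifferential.D K F t) = 1 ⊗ₜ KaehlerDifferential.D K K[X] X := by
    have := tensorKaehlerEquivOfFormallyEtale_symm_D_algebraMap K K[X] F (X : K[X])
    rwa [hF, aeval_X] at this
  simp only [LinearEquiv.trans_apply, h1]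
  simp [e2, e3, polynomialEquiv_D]

/-- (D1) `dt ≠ 0` for transcendental `t` (char 0). -/
theorem D_ne_zero_of_transcendental [CharZero K] [IsFF1 K F] {t : F} (ht : Transcendental K t) :
    KaehlerDifferential.D K F t ≠ 0 := by
  obtain ⟨e, he⟩ := exists_kaehler_equiv ht
  intro h
  rw [h, map_zero] at he
  exact zero_ne_one he

/-- (D2) `Ω[F/K]` is spanned by `dt`. -/
theorem span_D_eq_top [CharZero K] [IsFF1 K F] {t : F} (ht : Transcendental K t) :
    Submodule.span F {KaehlerDifferential.D K F t} = ⊤ := by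
  obtain ⟨e, he⟩ := exists_kaehler_equiv ht
  rw [eq_top_iff]
  intro ω _
  rw [Submodule.mem_span_singleton]
  refine ⟨e ω, e.injective ?_⟩
  rw [map_smul, he, smul_eq_mul, mul_one]

theorem nontrivial_kaehler [CharZero K] [IsFF1 K F] : Nontrivial Ω[F⁄K] := by
  obtain ⟨t, ht, -⟩ := IsFF1.exists_transcendental (K := K) (F := F)
  exact ⟨⟨_, _, D_ne_zero_of_transcendental ht⟩⟩

end Fermat.Agent.S24.FF
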