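import Fermat.Agent.S24.FF.KaehlerField
import Fermat.Agent.S24.FF.Dedekind

/-! # S24 / FF / package FF-KL : order of a differential at a place -/

set_option autoImplicit false

namespace Fermat.Agent.S24.FF

open AlgebraicCurve IntermediateField KaehlerDifferential

variable {K F : Type*} [Field K] [Field F] [Algebra K F]

/-- the (private) uniformizer underlying `dCoord`. -/
theorem exists_irreducible_dCoord_eq (v : Place K F) :
    ∃ π : v.toValuationSubring, Irreducible π ∧
      v.dCoord = KaehlerDifferential.D K F (π : F) :=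
  ⟨(IsDiscreteValuationRing.exists_irreducible v.toValuationSubring).choose,
    (IsDiscreteValuationRing.exists_irreducible v.toValuationSubring).choose_spec, rfl⟩

/-- (D3) -/
theorem dCoordGenerates [CharZero K] [IsFF1 K F] (v : Place K F) : v.DCoordGenerates := by
  obtain ⟨π, hπ, hd⟩ := exists_irreducible_dCoord_eq v
  have h1 : v.ord (π : F) ≠ 0 := by rw [v.ord_coe_irreducible hπ]; exact one_ne_zero
  refine ⟨?_⟩
  rw [hd]
  exact span_D_eq_top (transcendental_of_ord_ne_zero v h1)

/-- `Ω[O_v/K]` is generated by `dπ`. -/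
theorem span_D_uniformizer_eq_top [IsAlgClosed K] [CharZero K] [IsFF1 K F] (v : Place K F)
    (π : v.toValuationSubring) (hπ : v.ord (π : F) = 1) :
    Submodule.span v.toValuationSubring
      {KaehlerDifferential.D K v.toValuationSubring π} = ⊤ := by
  have : Algebra.EssFiniteType K v.toValuationSubring := essFiniteType_toValuationSubring v
  have hπ0 : (π : F) ≠ 0 := by
    intro h
    rw [h, v.ord_zero] at hπ
    exact zero_ne_one hπ
  have hπm : π ∈ IsLocalRing.maximalIdeal v.toValuationSubring := by
    rw [IsLocalRing.mem_maximalIdeal, mem_nonunits_iff]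
    intro hu
    have := v.ord_coe_unit hu.unit
    rw [IsUnit.unit_spec, hπ] at this
    exact one_ne_zero this
  rw [eq_top_iff]
  refine Submodule.le_of_le_smul_of_le_jacobson_bot
    (I := IsLocalRing.maximalIdeal v.toValuationSubring) (Module.Finite.fg_top) ?_ ?_
  · exact (IsLocalRing.maximalIdeal_le_jacobson _)
  · rw [← KaehlerDifferential.span_range_derivation, Submodule.span_le]
    rintro _ ⟨z, rfl⟩
    rw [KaehlerDifferential.span_range_derivation]
    obtain ⟨c, hc | hc⟩ := exists_ord_sub_pos v (ord_nonneg_of_mem v z.2)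
    · have hz : z = algebraMap K v.toValuationSubring c := Subtype.ext hc
      rw [hz, SetLike.mem_coe, Derivation.map_algebraMap]
      exact Submodule.zero_mem _
    · -- `z - c = π * z₁`
      have hne : (z : F) - algebraMap K F c ≠ 0 := by
        intro h
        rw [h, v.ord_zero] at hc
        exact lt_irrefl _ hc
      have hz1 : 0 ≤ v.ord (((z : F) - algebraMap K F c) * (π : F)⁻¹) := by
        rw [v.ord_mul hne (inv_ne_zero hπ0), v.ord_inv, hπ]
        omega
      set z1 : v.toValuationSubring :=
        ⟨((z : F) - algebraMap K F c) * (π : F)⁻¹, mem_toValuationSubring_of_ord_nonneg v hz1⟩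
        with hz1def
      have hz : z = algebraMap K v.toValuationSubring c + π * z1 := by
        apply Subtype.ext
        show (z : F) = algebraMap K F c + (π : F) * (((z : F) - algebraMap K F c) * (π : F)⁻¹)
        field_simp
        ring
      rw [SetLike.mem_coe, hz, map_add, Derivation.map_algebraMap, zero_add, Derivation.leibniz]
      refine Submodule.add_mem _ ?_ ?_
      · exact Submodule.mem_sup_right (Submodule.smul_mem_smul hπm Submodule.mem_top)
      · exact Submodule.mem_sup_left
          (Submodule.smul_mem _ _ (Submodule.mem_span_singleton_self _))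

/-- (D4) key local statement: if `π` is ANY uniformizer at `v` and `z ∈ O_v`, then
`dz = h dπ` with `h ∈ O_v`.  Proof: `Ω[O_v/K]` is a finite `O_v`-module (P3), and
`Ω = O_v dπ + 𝔪 Ω` because `z = c + π z₁` (P2); Nakayama; then map to `Ω[F/K]`. -/
theorem exists_D_eq_smul_D [IsAlgClosed K] [CharZero K] [IsFF1 K F] (v : Place K F) {π : F}
    (hπ : v.ord π = 1) {z : F} (hz : 0 ≤ v.ord z) :
    ∃ h : F, (h = 0 ∨ 0 ≤ v.ord h) ∧
      KaehlerDifferential.D K F z = h • KaehlerDifferential.D K F π := by
  have hπmem : π ∈ v.toValuationSubring :=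
    mem_toValuationSubring_of_ord_nonneg v (by rw [hπ]; exact zero_le_one)
  have hzmem : z ∈ v.toValuationSubring := mem_toValuationSubring_of_ord_nonneg v hz
  have htop := span_D_uniformizer_eq_top v ⟨π, hπmem⟩ hπ
  have hmem : KaehlerDifferential.D K v.toValuationSubring ⟨z, hzmem⟩ ∈
      Submodule.span v.toValuationSubring
        {KaehlerDifferential.D K v.toValuationSubring ⟨π, hπmem⟩} := by
    rw [htop]; exact Submodule.mem_top
  obtain ⟨h, hh⟩ := Submodule.mem_span_singleton.mp hmem
  refine ⟨(h : F), Or.inr (ord_nonneg_of_mem v h.2), ?_⟩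
  have := congrArg (KaehlerDifferential.map K K v.toValuationSubring F) hh
  rw [map_smul, KaehlerDifferential.map_D, KaehlerDifferential.map_D] at this
  exact this.symm

/-- (D5) `ord_v(dz) = ord_v(z) - 1` if `ord_v z ≠ 0`. -/
theorem ordDifferential_D [IsAlgClosed K] [CharZero K] [IsFF1 K F] (v : Place K F) {z : F}
    (hz : v.ord z ≠ 0) :
    v.ordDifferential (KaehlerDifferential.D K F z) = v.ord z - 1 := by
  have := dCoordGenerates v
  have : Nontrivial Ω[F⁄K] := nontrivial_kaehler
  obtain ⟨π, hπ, hd⟩ := exists_irreducible_dCoord_eq v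
  have hπ1 : v.ord (π : F) = 1 := v.ord_coe_irreducible hπ
  have hπ0 : (π : F) ≠ 0 := by
    intro h
    rw [h, v.ord_zero] at hπ1
    exact zero_ne_one hπ1
  have hz0 : z ≠ 0 := by
    rintro rfl
    exact hz v.ord_zero
  obtain ⟨u, hu⟩ := v.exists_unit_mul_zpow hz0 hπ
  set k : ℤ := v.ord z with hk
  have hu0 : ((u : v.toValuationSubring) : F) ≠ 0 := by
    simp [ne_eq, ZeroMemClass.coe_eq_zero]
  obtain ⟨h, hh, hDu⟩ := exists_D_eq_smul_D v hπ1
    (z := ((u : v.toValuationSubring) : F)) (by rw [v.ord_coe_unit])
  -- the coefficient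
  have hcoef : KaehlerDifferential.D K F z =
      ((π : F) ^ (k - 1) * ((π : F) * h + (k : F) * ((u : v.toValuationSubring) : F))) •
        v.dCoord := by
    rw [hd, hu, Derivation.leibniz, Derivation.leibniz_zpow, hDu]
    simp only [smul_smul, ← add_smul, ← Int.cast_smul_eq_zsmul F]
    congr 1
    have : (π : F) ^ k = (π : F) ^ (k - 1) * (π : F) := by
      rw [← zpow_add_one₀ hπ0]; congr 1; ring
    rw [this]
    ring
  have hkF : (k : F) = algebraMap K F (k : K) := by simp
  have hk0 : (k : F) ≠ 0 := by
    rw [hkF]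
    intro h0
    have : (k : K) = 0 := (algebraMap K F).injective (by rw [h0, map_zero])
    exact hz (by exact_mod_cast this)
  have hordku : v.ord ((k : F) * ((u : v.toValuationSubring) : F)) = 0 := by
    rw [v.ord_mul hk0 hu0, v.ord_coe_unit, hkF, ord_algebraMap, add_zero]
  have hsum : v.ord ((π : F) * h + (k : F) * ((u : v.toValuationSubring) : F)) = 0 ∧
      (π : F) * h + (k : F) * ((u : v.toValuationSubring) : F) ≠ 0 := by
    rcases eq_or_ne h 0 with rfl | hh0
    · rw [mul_zero, zero_add]
      exact ⟨hordku, mul_ne_zero hk0 hu0⟩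
    · have hh' : 0 ≤ v.ord h := hh.resolve_left hh0
      have hlt : v.ord ((k : F) * ((u : v.toValuationSubring) : F)) < v.ord ((π : F) * h) := by
        rw [hordku, v.ord_mul hπ0 hh0, hπ1]
        omega
      have := ord_add_eq_of_lt v (mul_ne_zero hk0 hu0) (mul_ne_zero hπ0 hh0) hlt
      rw [add_comm] at this
      refine ⟨this.trans hordku, ?_⟩
      intro h0
      -- if the sum vanished then `π h = - k u`, orders differ
      have h1 : (π : F) * h = -((k : F) * ((u : v.toValuationSubring) : F)) :=
        eq_neg_of_add_eq_zero_left h0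
      rw [h1, ord_neg] at hlt
      exact lt_irrefl _ hlt
  rw [Place.ordDifferential, v.differentialCoeff_unique hcoef,
    v.ord_mul (zpow_ne_zero _ hπ0) hsum.2, v.ord_zpow, hπ1, hsum.1]
  ring

/-- (D6) -/
theorem ordDifferential_smul_D [CharZero K] [IsFF1 K F] (v : Place K F) {f z : F}
    (hf : f ≠ 0) (hz : Transcendental K z) :
    v.ordDifferential (f • KaehlerDifferential.D K F z) =
      v.ord f + v.ordDifferential (KaehlerDifferential.D K F z) := by
  have := dCoordGenerates v
  have : Nontrivial Ω[F⁄K] := nontrivial_kaehler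
  refine v.ordDifferential_smul hf ?_
  intro h0
  have := v.differentialCoeff_smul_dCoord (KaehlerDifferential.D K F z)
  rw [h0, zero_smul] at this
  exact D_ne_zero_of_transcendental hz this.symm

end Fermat.Agent.S24.FF
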