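import Fermat.Agent.S24.FF.Dedekind
import Fermat.Agent.S24.Local.Approx

/-!
# S24 / FF / package FF-L1 : every place over `t = 0` comes from one of the `n` embeddings

`n = [F : K(t)]` distinct `K`-embeddings `φ i : F → 𝓛` with the same value at `t`, a valuation `W`
on `𝓛`, trivial on `K`, with `W (φ i t) < 1`.  Then every place `v` of `F` with `0 < v.ord t` is the
place of one of the valuations `W ∘ φ i`.

Proof.  Otherwise weak approximation gives `f` with `v.ord f < 0` and `W (φ i f) ≤ 1` for all `i`.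
The `φ i` are all the `K(t)`-embeddings of `F` in an algebraic closure of `𝓛`, so the roots of the
minimal polynomial of `f` over `K(t)` are `W`-integral, so its coefficients are `W`-integral elements
of `K(t)`, so they are regular at `t = 0`, so they are `v`-integral: `f` is integral over the
valuation ring of `v`, a contradiction.
-/

set_option autoImplicit false

namespace Fermat.Agent.S24.FF

open AlgebraicCurve IntermediateField Polynomial

theorem coeff_minpoly_mem_of_embeddings {L F 𝓛 : Type*} [Field L] [Field F] [Field 𝓛]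
    [Algebra L F] [Algebra L 𝓛] [FiniteDimensional L F] [Algebra.IsSeparable L F]
    {I : Type*} [Finite I] (ψ : I → F →ₐ[L] 𝓛) (hψ : Function.Injective ψ)
    (hI : Nat.card I = Module.finrank L F) (T : Subring 𝓛) (f : F) (hf : ∀ i, ψ i f ∈ T)
    (k : ℕ) : algebraMap L 𝓛 ((minpoly L f).coeff k) ∈ T := by
  classical
  have := Fintype.ofFinite I
  let Ω := AlgebraicClosure 𝓛
  let inc : 𝓛 →ₐ[L] Ω := IsScalarTower.toAlgHom L 𝓛 Ω
  have hinc : Function.Injective inc := inc.toRingHom.injective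
  let Ψ : I → F →ₐ[L] Ω := fun i => inc.comp (ψ i)
  have hΨinj : Function.Injective Ψ := by
    intro i j hij
    apply hψ
    ext x
    apply hinc
    exact DFunLike.congr_fun hij x
  have hΨsurj : Function.Surjective Ψ := by
    have hcard : Fintype.card I = Fintype.card (F →ₐ[L] Ω) := by
      rw [AlgHom.card, ← hI, Nat.card_eq_fintype_card]
    exact ((Fintype.bijective_iff_injective_and_card Ψ).2 ⟨hΨinj, hcard⟩).2
  -- the polynomial over Ω
  set P := minpoly L f with hP
  have hmonic : P.Monic := minpoly.monic (Algebra.IsIntegral.isIntegral f)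
  have hsplit : (P.map (algebraMap L Ω)).Splits := IsAlgClosed.splits _
  have hprod := hsplit.eq_prod_roots_of_monic (hmonic.map _)
  let T' : Subring Ω := T.map inc.toRingHom
  have hmem : P.map (algebraMap L Ω) ∈ Polynomial.lifts T'.subtype := by
    rw [hprod]
    apply Subsemiring.multiset_prod_mem
    intro q hq
    obtain ⟨r, hr, rfl⟩ := Multiset.mem_map.1 hq
    have hr' : r ∈ P.rootSet Ω := by
      rw [Polynomial.rootSet, Polynomial.aroots]
      simpa using hr
    rw [← Algebra.IsAlgebraic.range_eval_eq_rootSet_minpoly Ω f] at hr'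
    obtain ⟨σ, rfl⟩ := hr'
    obtain ⟨i, rfl⟩ := hΨsurj σ
    have : Ψ i f ∈ T' := ⟨ψ i f, hf i, rfl⟩
    rw [Polynomial.mem_lifts]
    exact ⟨X - C ⟨Ψ i f, this⟩, by simp⟩
  rw [Polynomial.lifts_iff_coeff_lifts] at hmem
  obtain ⟨⟨y, z, hz, hzy⟩, hy⟩ := hmem k
  rw [Polynomial.coeff_map] at hy
  have : inc z = inc (algebraMap L 𝓛 (P.coeff k)) := by
    rw [inc.commutes, ← hy]
    exact hzy
  rw [← hinc this]
  exact hz

section ratfun

variable {K F : Type*} [Field K] [Field F] [Algebra K F]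
variable {Γ₀ : Type*} [LinearOrderedCommGroupWithZero Γ₀]

theorem valuation_aeval_le_one (μ : Valuation F Γ₀)
    (hK : ∀ a : K, a ≠ 0 → μ (algebraMap K F a) = 1) {t : F} (ht : μ t < 1) (p : K[X]) :
    μ (aeval t p) ≤ 1 := by
  have hK' : ∀ a : K, algebraMap K F a ∈ μ.integer := by
    intro a
    by_cases ha : a = 0
    · simp [ha]
    · exact (hK a ha).le
  have ht' : t ∈ μ.integer := ht.le
  change aeval t p ∈ μ.integer
  rw [aeval_eq_sum_range]
  refine Subring.sum_mem _ fun i _ => ?_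
  rw [Algebra.smul_def]
  exact Subring.mul_mem _ (hK' _) (Subring.pow_mem _ ht' _)

theorem valuation_aeval_eq_one (μ : Valuation F Γ₀)
    (hK : ∀ a : K, a ≠ 0 → μ (algebraMap K F a) = 1) {t : F} (ht : μ t < 1) (p : K[X])
    (hp : p.coeff 0 ≠ 0) : μ (aeval t p) = 1 := by
  have h1 : aeval t p = aeval t (divX p) * t + algebraMap K F (p.coeff 0) := by
    conv_lhs => rw [← divX_mul_X_add p]
    simp
  have h2 : μ (aeval t (divX p) * t) < μ (algebraMap K F (p.coeff 0)) := by
    rw [hK _ hp, map_mul]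
    calc μ (aeval t (divX p)) * μ t ≤ 1 * μ t :=
          mul_le_mul_left (valuation_aeval_le_one μ hK ht _) _
      _ < 1 := by rwa [one_mul]
  rw [h1, μ.map_add_eq_of_lt_right h2, hK _ hp]

theorem valuation_aeval_eq_pow (μ : Valuation F Γ₀)
    (hK : ∀ a : K, a ≠ 0 → μ (algebraMap K F a) = 1) {t : F} (ht : μ t < 1) (p : K[X])
    (hp : p ≠ 0) : μ (aeval t p) = μ t ^ (p.rootMultiplicity 0) := by
  obtain ⟨q, hq, hq'⟩ := exists_eq_pow_rootMultiplicity_mul_and_not_dvd p hp 0
  rw [C_0, sub_zero] at hq hq'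
  have hq0 : q.coeff 0 ≠ 0 := fun h => hq' (X_dvd_iff.2 h)
  conv_lhs => rw [hq]
  rw [map_mul, map_pow, aeval_X, map_mul, map_pow, valuation_aeval_eq_one μ hK ht q hq0, mul_one]

theorem valuation_le_one_of_mem_adjoin {Γ₁ : Type*} [LinearOrderedCommGroupWithZero Γ₁]
    (μ : Valuation F Γ₀) (μ' : Valuation F Γ₁)
    (hK : ∀ a : K, a ≠ 0 → μ (algebraMap K F a) = 1)
    (hK' : ∀ a : K, a ≠ 0 → μ' (algebraMap K F a) = 1) {t : F} (ht0 : t ≠ 0)
    (ht : μ t < 1) (ht' : μ' t < 1) {c : F} (hc : c ∈ K⟮t⟯) (h : μ c ≤ 1) : μ' c ≤ 1 := by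
  obtain ⟨r, s, rfl⟩ := (mem_adjoin_simple_iff K c).1 hc
  by_cases hr : aeval t r = 0
  · simp [hr]
  by_cases hs : aeval t s = 0
  · simp [hs]
  have hr0 : r ≠ 0 := fun h => hr (by simp [h])
  have hs0 : s ≠ 0 := fun h => hs (by simp [h])
  have hμt : μ t ≠ 0 := (μ.ne_zero_iff).2 ht0
  have hμt' : μ' t ≠ 0 := (μ'.ne_zero_iff).2 ht0
  rw [map_div₀, valuation_aeval_eq_pow μ hK ht r hr0, valuation_aeval_eq_pow μ hK ht s hs0,
    div_le_one₀ (pow_pos (zero_lt_iff.2 hμt) _)] at h
  rw [map_div₀, valuation_aeval_eq_pow μ' hK' ht' r hr0, valuation_aeval_eq_pow μ' hK' ht' s hs0,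
    div_le_one₀ (pow_pos (zero_lt_iff.2 hμt') _)]
  have hle : s.rootMultiplicity 0 ≤ r.rootMultiplicity 0 := by
    by_contra hlt
    exact absurd h (not_le.2 (pow_lt_pow_right_of_lt_one₀ (zero_lt_iff.2 hμt) ht (not_le.1 hlt)))
  exact pow_le_pow_right_of_le_one' ht'.le hle

end ratfun

variable {K F : Type*} [Field K] [Field F] [Algebra K F]

/-- step (3) of the local counting lemma. -/
theorem exists_index_of_place [IsAlgClosed K] [CharZero K] [IsFF1 K F]
    {t : F} (ht : Transcendental K t)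
    {𝓛 : Type*} [Field 𝓛] [Algebra K 𝓛]
    {I : Type*} [Finite I]
    (φ : I → F →ₐ[K] 𝓛) (hφinj : Function.Injective φ) (hφt : ∀ i j, φ i t = φ j t)
    (hI : Nat.card I = Module.finrank K⟮t⟯ F)
    (W : Valuation 𝓛 (WithZero (Multiplicative ℤ)))
    (hWK : ∀ a : K, a ≠ 0 → W (algebraMap K 𝓛 a) = 1)
    (hWt : ∀ i, W (φ i t) < 1)
    (v : Place K F) (hv : 0 < v.ord t) :
    ∃ i, (W.comap (φ i).toRingHom).valuationSubring = v.toValuationSubring := by
  classical
  have := Fintype.ofFinite I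
  have ht0 : t ≠ 0 := ne_zero_of_ord_ne_zero v hv.ne'
  have : FiniteDimensional K⟮t⟯ F := finiteDimensional_adjoin_of_transcendental ht
  have : CharZero F := charZero_of_injective_algebraMap (algebraMap K F).injective
  -- the places of the `W ∘ φ i`
  have hplace : ∀ i, ∃ w : Place K F,
      w.toValuationSubring = (W.comap (φ i).toRingHom).valuationSubring := by
    intro i
    apply exists_place_of_valuationSubring
    · intro a
      change W (φ i (algebraMap K F a)) ≤ 1
      rw [(φ i).commutes]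
      by_cases ha : a = 0
      · simp [ha]
      · exact (hWK a ha).le
    · intro htop
      have h1 : t⁻¹ ∈ (W.comap (φ i).toRingHom).valuationSubring := htop ▸ trivial
      have h2 : W (φ i t⁻¹) ≤ 1 := h1
      have h3 : φ i t ≠ 0 := (map_ne_zero (φ i)).2 ht0
      have h4 : W (φ i t) ≠ 0 := (W.ne_zero_iff).2 h3
      rw [map_inv₀, map_inv₀, inv_le_one₀ (zero_lt_iff.2 h4)] at h2
      exact absurd (hWt i) (not_lt.2 h2)
  choose w hw using hplace
  by_contra hcon
  push Not at hcon
  have hvw : v ∉ Finset.univ.image w := by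
    intro h
    obtain ⟨i, -, rfl⟩ := Finset.mem_image.1 h
    exact hcon i (hw i).symm
  obtain ⟨f, hfv, hfw⟩ := Local.exists_ord_neg_and_eq_zero v (Finset.univ.image w) hvw
  have hfW : ∀ i, W (φ i f) ≤ 1 := by
    intro i
    have h1 : f ∈ (w i).toValuationSubring :=
      mem_toValuationSubring_of_ord_nonneg _ (hfw (w i) (Finset.mem_image_of_mem _ (Finset.mem_univ i))).ge
    rw [hw i] at h1
    exact h1
  -- `𝓛` as a `K(t)`-algebra
  have hpos : 0 < Nat.card I := hI ▸ Module.finrank_pos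
  obtain ⟨i₀⟩ : Nonempty I := (Nat.card_pos_iff.1 hpos).1
  let _ : Algebra K⟮t⟯ 𝓛 := ((φ i₀).toRingHom.comp (algebraMap K⟮t⟯ F)).toAlgebra
  have hcomm : ∀ i (x : K⟮t⟯), φ i (algebraMap K⟮t⟯ F x) = algebraMap K⟮t⟯ 𝓛 x := by
    intro i x
    have h1 : (φ i).comp (K⟮t⟯).val = (φ i₀).comp (K⟮t⟯).val := by
      apply IntermediateField.adjoin_algHom_ext
      intro y hy
      rw [Set.mem_singleton_iff] at hy
      subst hy
      exact hφt i i₀
    exact DFunLike.congr_fun h1 x
  let ψ : I → F →ₐ[K⟮t⟯] 𝓛 := fun i => { (φ i).toRingHom with commutes' := hcomm i }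
  have hψinj : Function.Injective ψ := by
    intro i j hij
    apply hφinj
    ext x
    exact DFunLike.congr_fun hij x
  have hcoeffW : ∀ k, W (φ i₀ ((minpoly K⟮t⟯ f).coeff k : F)) ≤ 1 := fun k =>
    coeff_minpoly_mem_of_embeddings ψ hψinj hI W.integer f hfW k
  -- transfer to `v`
  have hvK : ∀ a : K, a ≠ 0 → v.toValuationSubring.valuation (algebraMap K F a) = 1 := by
    intro a ha
    have ha' : algebraMap K F a ≠ 0 := (map_ne_zero (algebraMap K F)).2 ha
    have h1 : v.toValuationSubring.valuation (algebraMap K F a) ≤ 1 :=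
      (ValuationSubring.valuation_le_one_iff _ _).2 (v.algebraMap_mem' a)
    have h2 : v.toValuationSubring.valuation (algebraMap K F a)⁻¹ ≤ 1 := by
      rw [← map_inv₀ (algebraMap K F)]
      exact (ValuationSubring.valuation_le_one_iff _ _).2 (v.algebraMap_mem' a⁻¹)
    rw [map_inv₀, inv_le_one₀ (zero_lt_iff.2 ((Valuation.ne_zero_iff _).2 ha'))] at h2
    exact le_antisymm h1 h2
  have hvt : v.toValuationSubring.valuation t < 1 := by
    by_contra hge
    have h1 : v.toValuationSubring.valuation t⁻¹ ≤ 1 := by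
      rw [map_inv₀, inv_le_one₀ (zero_lt_iff.2 ((Valuation.ne_zero_iff _).2 ht0))]
      exact not_lt.1 hge
    have h2 := ord_nonneg_of_mem v ((ValuationSubring.valuation_le_one_iff _ _).1 h1)
    rw [v.ord_inv] at h2
    omega
  have hcoeffv : ∀ k, ((minpoly K⟮t⟯ f).coeff k : F) ∈ v.toValuationSubring := by
    intro k
    rw [← ValuationSubring.valuation_le_one_iff]
    refine valuation_le_one_of_mem_adjoin (K := K) (W.comap (φ i₀).toRingHom) _ ?_ hvK ht0
      (hWt i₀) hvt ((minpoly K⟮t⟯ f).coeff k).2 (hcoeffW k)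
    intro a ha
    change W (φ i₀ (algebraMap K F a)) = 1
    rw [(φ i₀).commutes]
    exact hWK a ha
  -- integrality
  have hint : IsIntegral v.toValuationSubring f := by
    have hmonic : (minpoly K⟮t⟯ f).Monic := minpoly.monic (Algebra.IsIntegral.isIntegral f)
    have hlift : (minpoly K⟮t⟯ f).map (algebraMap K⟮t⟯ F)
        ∈ Polynomial.lifts (algebraMap v.toValuationSubring F) := by
      rw [Polynomial.lifts_iff_coeff_lifts]
      intro k
      rw [Polynomial.coeff_map]
      exact ⟨⟨_, hcoeffv k⟩, rfl⟩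
    obtain ⟨Q, hQ, -, hQm⟩ := Polynomial.lifts_and_natDegree_eq_and_monic hlift (hmonic.map _)
    refine ⟨Q, hQm, ?_⟩
    rw [← Polynomial.eval_map, hQ, Polynomial.eval_map_algebraMap, minpoly.aeval]
  obtain ⟨y, hy⟩ := IsIntegrallyClosed.isIntegral_iff.1 hint
  have hmem : f ∈ v.toValuationSubring := hy ▸ y.2
  exact absurd (ord_nonneg_of_mem v hmem) (not_le.2 hfv)

end Fermat.Agent.S24.FF
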